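import Fermat.Agent.Level.Theta
import Fermat.Agent.Curve.Riemann

/-!
# Change of the field of constants to `ℂ`, the place at infinity, orders at embeddings
-/

set_option autoImplicit false
set_option linter.style.haveILetI false
set_option linter.unusedSectionVars false
set_option synthInstance.maxHeartbeats 200000
set_option maxHeartbeats 1600000

noncomputable section

namespace FA.Level

open UpperHalfPlane hiding I
open Complex ModularCurve AlgebraicCurve FA.ModField
open scoped MatrixGroups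

variable (V : Lvl) (L : Type) [Field L] [Algebra ℚ L] [Algebra L ℂ]

theorem coeffMap_mem_fld {x : LaurentSeries L} (hx : x ∈ V.fld L) :
    coeffMap (algebraMap L ℂ) x ∈ V.fld ℂ := by
  rw [Lvl.fld, mem_laurentBaseChange_iff] at hx
  induction hx using Subfield.closure_induction with
  | mem y hy =>
      rcases hy with ⟨a, rfl⟩ | ⟨z, hz, rfl⟩
      · rw [algebraMap_laurentSeries_eq_single, coeffMap_single,
          ← algebraMap_laurentSeries_eq_single]
        exact IntermediateField.algebraMap_mem _ _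
      · rw [Lvl.coeffMap_coeffEmb_complex]
        exact coeffEmb_mem_laurentBaseChange ℂ hz
  | one => simp
  | add x y _ _ hx hy => simpa using add_mem hx hy
  | neg x _ hx => simpa using neg_mem hx
  | inv x _ hx => simpa using inv_mem hx
  | mul x y _ _ hx hy => simpa using mul_mem hx hy

theorem coeffMap_mem_alg {x : LaurentSeries L} (hx : x ∈ V.alg L) :
    coeffMap (algebraMap L ℂ) x ∈ V.alg ℂ := by
  induction hx using Algebra.adjoin_induction with
  | mem y hy =>
    obtain ⟨z, hz, rfl⟩ := hy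
    rw [Lvl.coeffMap_coeffEmb_complex]
    exact Algebra.subset_adjoin ⟨z, hz, rfl⟩
  | algebraMap c =>
    rw [algebraMap_laurentSeries_eq_single, coeffMap_single, ← algebraMap_laurentSeries_eq_single]
    exact Subalgebra.algebraMap_mem _ _
  | add y z _ _ hy hz => rw [map_add]; exact add_mem hy hz
  | mul y z _ _ hy hz => rw [map_mul]; exact mul_mem hy hz

/-- Extension of constants to `ℂ`. -/
def toC : V.fld L →+* V.fld ℂ :=
  RingHom.codRestrict ((coeffMap (algebraMap L ℂ)).comp (V.fld L).val.toRingHom) (V.fld ℂ)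
    fun x => coeffMap_mem_fld V L x.2

theorem coe_toC (x : V.fld L) :
    ((toC V L x : V.fld ℂ) : LaurentSeries ℂ) = coeffMap (algebraMap L ℂ) (x : LaurentSeries L) :=
  rfl

/-- Extension of constants on `alg`. -/
def algToC (a : V.alg L) : V.alg ℂ := ⟨_, coeffMap_mem_alg V L a.2⟩

theorem toC_toFld (a : V.alg L) : toC V L (V.toFld L a) = V.toFld ℂ (algToC V L a) := Subtype.ext rfl

theorem funHom_algToC (a : V.alg L) : V.funHom ℂ (algToC V L a) = V.funHom L a :=
  V.fn_eq ℂ (by
    rw [algToC]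
    show HasExp (qp 1) _ (coeffMap (algebraMap ℂ ℂ) (coeffMap (algebraMap L ℂ) _))
    rw [Algebra.algebraMap_self, coeffMap_id]
    exact V.funHom_exp L a)

theorem theta_toC (f : V.fld L) : theta (toC V L f) = theta f := by
  obtain ⟨a, b, hb, hab⟩ := V.exists_fraction L f
  have h1 := congrArg (fun x => theta (toC V L x)) hab
  have h2 := congrArg (fun x => theta x) hab
  simp only [map_mul, toC_toFld, theta_toFld] at h1 h2
  have hg : ∀ c, genHol (algToC V L c) = genHol c := fun c => Subtype.ext (funHom_algToC V L c)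
  rw [hg, hg, ← h2] at h1
  exact mul_right_cancel₀ (fun h0 => hb (genHol_injective (by
    rw [map_zero]; exact toMer_injective (h0.trans (map_zero _).symm)))) h1

theorem emb_toC (P : LPar V) (γ : SL(2, ℤ)) (f : V.fld L) :
    emb P γ (toC V L f) = emb P γ f := by
  refine emb_ext (σ := (emb P γ).toRingHom.comp (toC V L)) (fun a => ?_) f
  rw [RingHom.comp_apply, AlgHom.toRingHom_eq_coe, AlgHom.coe_toRingHom, toC_toFld, emb_toFld]
  exact expAt_eq (by rw [funHom_algToC]; exact expAt_spec P γ a)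

variable {V L}

/-- The series of a function of the field given by a holomorphic function. -/
theorem emb_eq_of_theta {P : LPar V} {γ : SL(2, ℤ)} {f : V.fld L} {R : holSub}
    (h : theta f = toMer R) {K : LaurentSeries ℂ}
    (hK : HasExp P.T (fun x => (R : ℍ → ℂ) (γ • P.g₀ x)) K) : emb P γ f = K := by
  obtain ⟨a, b, hb, hab⟩ := V.exists_fraction L f
  have h1 := congrArg theta hab
  rw [map_mul, h, theta_toFld, theta_toFld, ← map_mul] at h1
  have h2 := congrArg Subtype.val (toMer_injective h1)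
  have h3 : expAt P γ a = K * expAt P γ b :=
    expAt_eq ((hK.mul P.hT (expAt_spec P γ b)).congr (funext fun x => congrFun h2 (γ • P.g₀ x)))
  have h4 := congrArg (emb P γ) hab
  rw [map_mul, emb_toFld, emb_toFld, h3] at h4
  exact mul_right_cancel₀ (expAt_ne_zero P γ hb) h4

/-- Divisibility at all places gives divisibility at all embeddings. -/
theorem dvd_order_emb {n : ℤ} {f : V.fld L} (h : ∀ v : Place L (V.fld L), n ∣ v.ord f)
    (P : LPar V) (γ : SL(2, ℤ)) : n ∣ (emb P γ f).order := by
  rcases exists_place_of_embedding (emb (L := L) P γ) with h' | ⟨v, k, -, h'⟩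
  · rw [h' f]; exact dvd_zero _
  · rw [h' f]; exact dvd_mul_of_dvd_right (h v) _

theorem dvd_ord_of_fam [IsAlgClosed L] {y : V.fld L} (E : EmbFamily L (V.fld L) ℂ (V.jFld L) y V.Cos) {C : ℕ}
    (hC : E.m ∣ C) {n : ℤ} {f : V.fld L} {v : Place L (V.fld L)} (hv : 0 < v.ord y)
    (hσ : ∀ i, (C : ℤ) * n ∣ (E.σ i f).order) : n ∣ v.ord f := by
  obtain ⟨i, rfl⟩ := E.pl_surjective v hv
  have h1 := hσ i
  rw [E.order_σ] at h1
  obtain ⟨d, hd⟩ : E.scale i ∣ (C : ℤ) :=
    Dvd.dvd.trans ⟨_, (E.scale_mul_ord_y i).symm⟩ (Int.natCast_dvd_natCast.2 hC)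
  rw [hd, mul_assoc, mul_dvd_mul_iff_left (E.scale_pos i).ne'] at h1
  exact dvd_trans (dvd_mul_left n d) h1

/-- Divisibility at all embeddings gives divisibility at all places, up to `6 M`. -/
theorem dvd_ord_of_emb [IsAlgClosed L] {n : ℤ} {f : V.fld L}
    (hc : ∀ γ, ((6 * V.M : ℕ) : ℤ) * n ∣ (emb (cuspPar V) γ f).order)
    (hp : ∀ τ γ, ((6 * V.M : ℕ) : ℤ) * n ∣ (emb (pointPar V τ) γ f).order)
    (v : Place L (V.fld L)) : n ∣ v.ord f := by
  rcases lt_or_ge (v.ord (V.jF L)) 0 with h | h
  · exact dvd_ord_of_fam (V.cuspFam L) (dvd_mul_left V.M 6) (by rw [v.ord_inv]; omega)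
      fun i => hc _
  · obtain ⟨a, ha⟩ := exists_residue (V.cuspFam L).isCurve v (mem_place_of_ord_nonneg v h)
    replace ha := ha.resolve_left fun heq =>
      V.jF_transcendental L (heq ▸ isAlgebraic_algebraMap a)
    rcases eq_or_ne a 0 with rfl | h0
    · obtain ⟨g, hg⟩ : ∃ g : SL(2, ℤ), g = ModularGroup.S * ModularGroup.T := ⟨_, rfl⟩
      exact dvd_ord_of_fam (V.pointFam L 0 rho (by rw [jfun_rho, map_zero]) g (hg ▸ ST_smul_rho) 3
        (by norm_num) order_jLocal_rho (rotUnit_rho hg)) (⟨2 * V.M, by simp [Lvl.pointFam]; ring⟩)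
        ha fun i => hp _ _
    rcases eq_or_ne a 1728 with rfl | h1
    · exact dvd_ord_of_fam (V.pointFam L 1728 UpperHalfPlane.I (by rw [jfun_I, map_ofNat])
        ModularGroup.S S_smul_I 2 (by norm_num) order_jLocal_I rotUnit_I)
        (⟨3 * V.M, by simp [Lvl.pointFam]; ring⟩) ha fun i => hp _ _
    obtain ⟨τ, hτ⟩ := exists_jfun_eq (algebraMap L ℂ a)
    have hj0 : jfun τ ≠ 0 := by rw [hτ]; exact (_root_.map_ne_zero _).2 h0
    have hj1 : jfun τ ≠ 1728 := by
      rw [hτ, ← map_ofNat (algebraMap L ℂ) 1728]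
      exact fun h' => h1 ((algebraMap L ℂ).injective h')
    exact dvd_ord_of_fam (V.pointFam L a τ hτ 1 (one_smul _ τ) 1 one_pos
      (order_jLocal_general hj0 hj1) (rotUnit_one τ)) (one_dvd _) ha fun i => hp _ _

variable (V)

theorem exists_infPlace : ∃ v : Place ℂ (V.fld ℂ),
    ∀ f : V.fld ℂ, v.ord f = (f : LaurentSeries ℂ).order := by
  have hj : ((V.jF ℂ : V.fld ℂ) : LaurentSeries ℂ).order = -1 := by
    rw [V.coe_jF ℂ]
    have h := order_qExpand_twist_jq 1 1
    rwa [qExpand_one_apply, twist_one_apply] at h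
  rcases exists_place_of_embedding (V.fld ℂ).val with h | ⟨v, k, hk, h⟩
  · exact absurd ((h (V.jF ℂ)).symm.trans hj) (by norm_num)
  · have hj' : k * v.ord (V.jF ℂ) = -1 := (h (V.jF ℂ)).symm.trans hj
    have hk1 : k = 1 := Int.eq_one_of_dvd_one hk.le ⟨-v.ord (V.jF ℂ), by linarith⟩
    exact ⟨v, fun f => by
      have := h f
      rw [hk1, one_mul] at this
      exact this.symm⟩

/-- The place at infinity. -/
def infPlace : Place ℂ (V.fld ℂ) := (exists_infPlace V).choose

theorem ord_infPlace (f : V.fld ℂ) : (infPlace V).ord f = (f : LaurentSeries ℂ).order :=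
  (exists_infPlace V).choose_spec f

end FA.Level
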