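import Fermat.Agent.Level.Basic
import Fermat.Agent.ModField.Bar
import Fermat.Prelude.Def_ModularCurve_X0ModL

/-!
# The level `Γ₀(N)` with its function field `modularFunctionFieldFull N`
-/

set_option autoImplicit false
set_option linter.style.haveILetI false

noncomputable section

namespace FA.Level

open UpperHalfPlane hiding I
open Complex CongruenceSubgroup ModularCurve FA.ModField
open scoped MatrixGroups Topology Manifold

variable (N : ℕ) [NeZero N]

theorem coeffMap_gen_rat (d : ℕ) [NeZero d] :
    coeffMap (algebraMap ℚ ℂ) (qExpand ℚ d jq) = qExpand ℂ d (jqModC ℂ) := by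
  rw [coeffMap_qExpand, ← jqModC_rat, coeffMap_jqModC]

/-- The level `Γ₀(N)`. -/
def lvlGamma0 : Lvl where
  M := N
  M_ne := NeZero.ne N
  grp := Gamma0 N
  gamma_le := fun g hg => by
    rw [Gamma_mem] at hg
    rw [Gamma0_mem]
    exact hg.2.2.1
  neg_one_mem := by rw [Gamma0_mem]; simp
  T_mem := by rw [Gamma0_mem]; simp [ModularGroup.T]
  F₀ := modularFunctionFieldFull N
  gen := divisorExpansions N
  F₀_eq := rfl
  gen_mem := by
    rintro a ⟨d, hd0, hd, rfl⟩
    haveI := hd0
    refine ⟨fun z => jfun (scaleH d z), scale_mem_modFuns N d hd, ?_⟩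
    rw [coeffMap_gen_rat]
    exact hasExp_scale d
  j_mem := by
    refine ⟨1, inferInstance, one_dvd N, ?_⟩
    rw [jqModC_rat, qExpand_one_apply]
  sepSer := qExpand ℚ N jq
  sep_mem := mem_divisorExpansions N dvd_rfl
  sepFun := fun z => jfun (scaleH N z)
  sep_exp := by
    rw [coeffMap_gen_rat]
    exact hasExp_scale N
  sep_spec := fun _ hg => mem_Gamma0_of_scale_invariant N hg

theorem lvlGamma0_fld (L : Type) [Field L] [Algebra ℚ L] :
    (lvlGamma0 N).fld L = modularFunctionFieldFullC L N :=
  laurentBaseChange_full L N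

theorem lvlGamma0_fld_bar :
    (lvlGamma0 N).fld (AlgebraicClosure ℚ) = modularFunctionFieldBar N := rfl

example : AlgebraicCurve.Pic0 (AlgebraicClosure ℚ) ((lvlGamma0 N).fld (AlgebraicClosure ℚ)) =
    JZero N := rfl

end FA.Level
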