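import Mathlib
import Fermat.Agent.ModField.Curve
import Fermat.Agent.ModField.Laurent
import Fermat.Prelude.Def_ModularCurve_LaurentCoeff
import Fermat.Prelude.Def_ModularCurve_X0

/-!
# General lemmas on Laurent series: places from embeddings, descent of coefficients
-/

set_option autoImplicit false
set_option linter.style.haveILetI false
set_option linter.unusedSectionVars false

noncomputable section

namespace FA.Level

open HahnSeries ModularCurve AlgebraicCurve FA.ModField

/-- An embedding into Laurent series either has all orders zero or factors through a place. -/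
theorem exists_place_of_embedding {K F C : Type*} [Field K] [Field F] [Algebra K F] [Field C]
    [Algebra K C] (σ : F →ₐ[K] LaurentSeries C) :
    (∀ f : F, (σ f).order = 0) ∨
      ∃ (v : Place K F) (k : ℤ), 0 < k ∧ ∀ f : F, (σ f).order = k * v.ord f := by
  classical
  by_cases hall : ∀ f : F, (σ f).order = 0
  · exact Or.inl hall
  refine Or.inr ?_
  push Not at hall
  obtain ⟨y, hy⟩ := hall
  have hne : ∀ f : F, f ≠ 0 → σ f ≠ 0 := fun f hf => (_root_.map_ne_zero σ).2 hf
  let A : ValuationSubring F :=
    { toSubring := (nonnegSubring C).comap (σ : F →+* LaurentSeries C)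
      mem_or_inv_mem' := fun f => by
        rcases eq_or_ne f 0 with rfl | hf
        · exact Or.inl ((nonnegSubring C).comap (σ : F →+* LaurentSeries C)).zero_mem
        simp only [Subring.mem_carrier, Subring.mem_comap, mem_nonnegSubring, AlgHom.coe_toRingHom,
          ordGE_iff_le_order (hne f hf), ordGE_iff_le_order (hne f⁻¹ (inv_ne_zero hf))]
        rw [map_inv₀, order_inv']
        omega }
  have hA : ∀ f : F, f ∈ A ↔ 0 ≤ (σ f).order := by
    intro f
    show σ f ∈ nonnegSubring C ↔ _
    rcases eq_or_ne f 0 with rfl | hf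
    · simp
    · rw [mem_nonnegSubring, ordGE_iff_le_order (hne f hf)]
  let v : Place K F :=
    { toValuationSubring := A
      algebraMap_mem' := fun a => by
        rw [hA, AlgHom.commutes, HahnSeries.algebraMap_apply', PowerSeries.algebraMap_apply,
          HahnSeries.ofPowerSeries_C, HahnSeries.order_C]
      ne_top' := fun h => by
        have h1 : y ∈ A := h ▸ ValuationSubring.mem_top _
        have h2 : y⁻¹ ∈ A := h ▸ ValuationSubring.mem_top _
        rw [hA] at h1 h2
        rw [map_inv₀, order_inv'] at h2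
        omega
      isPrincipalIdealRing' := by
        refine ⟨fun I => ?_⟩
        rcases eq_or_ne I ⊥ with rfl | hI
        · exact ⟨⟨0, by simp⟩⟩
        obtain ⟨a, haI, ha⟩ := Submodule.exists_mem_ne_zero_of_ne_bot hI
        have hex : ∃ n : ℕ, ∃ a ∈ I, a ≠ 0 ∧ (σ (a : F)).order = n :=
          ⟨((σ (a : F)).order).toNat, a, haI, ha, (Int.toNat_of_nonneg ((hA _).1 a.2)).symm⟩
        obtain ⟨b, hbI, hb, hbn⟩ := Nat.find_spec hex
        refine ⟨⟨b, le_antisymm (fun c hc => ?_) ((Ideal.span_singleton_le_iff_mem _).2 hbI)⟩⟩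
        rw [Ideal.mem_span_singleton']
        rcases eq_or_ne c 0 with rfl | hc0
        · exact ⟨0, by simp⟩
        have hb' : (b : F) ≠ 0 := by simpa using hb
        have hc' : (c : F) ≠ 0 := by simpa using hc0
        have hle : (Nat.find hex : ℤ) ≤ (σ (c : F)).order := by
          have hnn := (hA _).1 c.2
          have := Nat.find_min' hex (m := ((σ (c : F)).order).toNat)
            ⟨c, hc, hc0, (Int.toNat_of_nonneg hnn).symm⟩
          omega
        refine ⟨⟨(c : F) / b, (hA _).2 ?_⟩, Subtype.ext (by
          simp only [MulMemClass.coe_mul]; rw [div_mul_cancel₀ _ hb'])⟩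
        rw [map_div₀, order_div' (hne _ hc') (hne _ hb'), hbn]
        omega }
  have hv : ∀ f : F, 0 ≤ v.ord f ↔ 0 ≤ (σ f).order := fun f => by
    rw [← mem_place_iff]
    exact hA f
  obtain ⟨t, ht⟩ := exists_uniformizer v
  have ht0 : t ≠ 0 := by rintro rfl; simp at ht
  refine ⟨v, (σ t).order, ?_, fun f => ?_⟩
  · by_contra h
    have h1 : 0 ≤ (σ t⁻¹).order := by rw [map_inv₀, order_inv']; omega
    rw [← hv, Place.ord_inv, ht] at h1
    omega
  rcases eq_or_ne f 0 with rfl | hf
  · simp
  set n := v.ord f
  have htn : t ^ n ≠ 0 := zpow_ne_zero _ ht0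
  have h1 : 0 ≤ v.ord (f / t ^ n) := by
    rw [div_eq_mul_inv, Place.ord_mul _ hf (inv_ne_zero htn), Place.ord_inv, Place.ord_zpow, ht]
    omega
  have h2 : 0 ≤ v.ord (t ^ n / f) := by
    rw [div_eq_mul_inv, Place.ord_mul _ htn (inv_ne_zero hf), Place.ord_inv, Place.ord_zpow, ht]
    omega
  rw [hv, map_div₀, order_div' (hne _ hf) (hne _ htn), map_zpow₀, order_zpow'] at h1
  rw [hv, map_div₀, order_div' (hne _ htn) (hne _ hf), map_zpow₀, order_zpow'] at h2
  linarith

/-- The Lagrange expression is unchanged by a permutation. -/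
theorem interp_perm {ι R : Type*} [Fintype ι] [DecidableEq ι] [CommRing R] (e : Equiv.Perm ι)
    (a b : ι → R) :
    ∑ i, a (e i) * ∏ k ∈ Finset.univ.erase i, b (e k) =
      ∑ i, a i * ∏ k ∈ Finset.univ.erase i, b k := by
  refine Fintype.sum_equiv e _ _ fun i => ?_
  congr 1
  exact Finset.prod_equiv e (fun k => by simp [Finset.mem_erase]) fun k _ => rfl

/-- A series over `ℂ` with an `n`-th power defined over the algebraically closed field `L` is
defined over `L`. -/
theorem exists_coeffMap_eq_of_pow {L : Type} [Field L] [IsAlgClosed L] [Algebra L ℂ]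
    {n : ℕ} (hn : n ≠ 0) (S : LaurentSeries ℂ) (p : LaurentSeries L)
    (h : S ^ n = coeffMap (algebraMap L ℂ) p) :
    ∃ s : LaurentSeries L, coeffMap (algebraMap L ℂ) s = S := by
  classical
  rcases eq_or_ne S 0 with rfl | hS
  · exact ⟨0, map_zero _⟩
  set K : Subfield ℂ := (algebraMap L ℂ).fieldRange
  set T := S.powerSeriesPart
  have hTn : ∀ k, (T ^ n).coeff k ∈ K := by
    intro k
    have h2 : HahnSeries.ofPowerSeries ℤ ℂ (T ^ n) =
        HahnSeries.single (-((n : ℤ) * S.order)) 1 * coeffMap (algebraMap L ℂ) p := by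
      rw [map_pow, LaurentSeries.ofPowerSeries_powerSeriesPart, mul_pow, HahnSeries.single_pow, h,
        one_pow, nsmul_eq_mul, mul_neg]
    have h3 := congrArg (fun t : LaurentSeries ℂ => t.coeff (k : ℤ)) h2
    simp only [HahnSeries.ofPowerSeries_apply_coeff, HahnSeries.coeff_single_mul, one_mul,
      coeffMap_coeff] at h3
    rw [h3]
    exact ⟨_, rfl⟩
  have hT0 : T.coeff 0 ≠ 0 := by
    rw [LaurentSeries.powerSeriesPart_coeff, Nat.cast_zero, add_zero]
    exact HahnSeries.coeff_order_eq_zero.not.2 hS
  have hT0K : T.coeff 0 ∈ K := by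
    obtain ⟨c, hc⟩ := hTn 0
    rw [PowerSeries.coeff_zero_eq_constantCoeff, map_pow,
      ← PowerSeries.coeff_zero_eq_constantCoeff] at hc
    obtain ⟨d, hd⟩ := IsAlgClosed.exists_pow_nat_eq c (Nat.pos_of_ne_zero hn)
    have hd0 : algebraMap L ℂ d ≠ 0 := fun h0 => hT0 (by
      have : T.coeff 0 ^ n = 0 := by rw [← hc, ← hd, map_pow, h0, zero_pow hn]
      exact (pow_eq_zero_iff hn).1 this)
    have hz : (T.coeff 0 / algebraMap L ℂ d) ^ n = 1 := by
      rw [div_pow, ← map_pow (algebraMap L ℂ), hd, hc, div_self (pow_ne_zero _ hT0)]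
    haveI : CharZero L := (RingHom.charZero_iff (algebraMap L ℂ).injective).2 inferInstance
    haveI : NeZero n := ⟨hn⟩
    obtain ⟨ζ, hζ⟩ := HasEnoughRootsOfUnity.exists_primitiveRoot L n
    obtain ⟨i, -, hi⟩ :=
      (hζ.map_of_injective (algebraMap L ℂ).injective).eq_pow_of_pow_eq_one hz
    refine ⟨ζ ^ i * d, ?_⟩
    rw [map_mul, map_pow, hi, div_mul_cancel₀ _ hd0]
  have hall : ∀ k, T.coeff k ∈ K := by
    intro k
    induction k using Nat.strong_induction_on with
    | _ k ih =>
      rcases Nat.eq_zero_or_pos k with rfl | hk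
      · exact hT0K
      set low : PowerSeries ℂ := ((PowerSeries.trunc k T : Polynomial ℂ) : PowerSeries ℂ)
      have hlowK : ∀ i, low.coeff i ∈ K := fun i => by
        simp only [low, Polynomial.coeff_coe, PowerSeries.coeff_trunc]
        split_ifs with hi
        · exact ih i hi
        · exact K.zero_mem
      obtain ⟨H, hH⟩ : (PowerSeries.X : PowerSeries ℂ) ^ k ∣ T - low := by
        rw [PowerSeries.X_pow_dvd_iff]
        intro i hi
        simp only [map_sub, low, Polynomial.coeff_coe, PowerSeries.coeff_trunc, if_pos hi, sub_self]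
      obtain ⟨c, hc⟩ := sq_dvd_add_pow_sub_sub ((PowerSeries.X : PowerSeries ℂ) ^ k * H) low n
      rw [← hH, add_sub_cancel] at hc
      have hlowpow : ∀ m i, (low ^ m).coeff i ∈ K := by
        intro m i
        obtain ⟨q, hq⟩ : ∃ q : PowerSeries K, PowerSeries.map K.subtype q = low :=
          ⟨PowerSeries.mk fun i => ⟨low.coeff i, hlowK i⟩, by ext i; simp⟩
        rw [← hq, ← map_pow, PowerSeries.coeff_map]
        exact (PowerSeries.coeff i (q ^ m)).2
      have hHk : PowerSeries.constantCoeff H = T.coeff k := by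
        have := congrArg (PowerSeries.coeff k) hH
        rw [PowerSeries.coeff_X_pow_mul', if_pos le_rfl, Nat.sub_self,
          PowerSeries.coeff_zero_eq_constantCoeff] at this
        rw [← this]
        simp [low, PowerSeries.coeff_trunc]
      have hk' : (T ^ n).coeff k = (low ^ n).coeff k +
          (n : ℂ) * T.coeff 0 ^ (n - 1) * T.coeff k := by
        have h1 : T ^ n = low ^ n + low ^ (n - 1) * ((PowerSeries.X : PowerSeries ℂ) ^ k * H) * n +
            ((PowerSeries.X : PowerSeries ℂ) ^ k * H) ^ 2 * c := by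
          rw [← hH, ← hc]; ring
        rw [h1, map_add, map_add]
        have h2 : PowerSeries.coeff k
            (((PowerSeries.X : PowerSeries ℂ) ^ k * H) ^ 2 * c) = 0 := by
          rw [mul_pow, ← pow_mul, mul_assoc, PowerSeries.coeff_X_pow_mul', if_neg (by omega)]
        have h3 : low ^ (n - 1) * ((PowerSeries.X : PowerSeries ℂ) ^ k * H) * (n : PowerSeries ℂ) =
            (PowerSeries.X : PowerSeries ℂ) ^ k * (low ^ (n - 1) * H * (n : PowerSeries ℂ)) := by
          ring
        rw [h2, add_zero, h3, PowerSeries.coeff_X_pow_mul', if_pos le_rfl, Nat.sub_self,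
          PowerSeries.coeff_zero_eq_constantCoeff]
        simp only [map_mul, map_pow, map_natCast, hHk]
        congr 1
        rw [show PowerSeries.constantCoeff low = T.coeff 0 by
          rw [← PowerSeries.coeff_zero_eq_constantCoeff_apply]
          simp [low, PowerSeries.coeff_trunc, hk]]
        simp only [PowerSeries.coeff_zero_eq_constantCoeff_apply]
        ring
      have hne : (n : ℂ) * T.coeff 0 ^ (n - 1) ≠ 0 :=
        mul_ne_zero (by exact_mod_cast hn) (pow_ne_zero _ hT0)
      rw [show T.coeff k = ((T ^ n).coeff k - (low ^ n).coeff k) /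
          ((n : ℂ) * T.coeff 0 ^ (n - 1)) by rw [hk', add_sub_cancel_left, mul_div_cancel_left₀ _ hne]]
      exact K.div_mem (K.sub_mem (hTn k) (hlowpow n k))
        (K.mul_mem (natCast_mem K n) (K.pow_mem hT0K _))
  choose t ht using hall
  refine ⟨HahnSeries.single S.order 1 * HahnSeries.ofPowerSeries ℤ L (PowerSeries.mk t), ?_⟩
  rw [map_mul, coeffMap_single, map_one]
  conv_rhs => rw [← LaurentSeries.single_order_mul_powerSeriesPart S]
  congr 1
  ext i
  rw [coeffMap_coeff]
  rcases lt_or_ge i 0 with hi | hi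
  · rw [ModularCurve.ofPowerSeries_coeff_of_neg _ hi, map_zero,
      ModularCurve.ofPowerSeries_coeff_of_neg _ hi]
  · lift i to ℕ using hi
    simp only [HahnSeries.ofPowerSeries_apply_coeff, PowerSeries.coeff_mk, ht]
    rfl

/-! ### Functionals applied coefficientwise -/

variable {L : Type} [Field L] [Algebra L ℂ]

/-- Applying an `L`-linear functional coefficientwise. -/
def coeffFun (φ : ℂ →ₗ[L] L) (s : LaurentSeries ℂ) : LaurentSeries L := s.map φ

theorem coeffFun_coeff (φ : ℂ →ₗ[L] L) (s : LaurentSeries ℂ) (n : ℤ) :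
    (coeffFun φ s).coeff n = φ (s.coeff n) := rfl

theorem coeffFun_coeffMap_mul (φ : ℂ →ₗ[L] L) (r : LaurentSeries L) (s : LaurentSeries ℂ) :
    coeffFun φ (coeffMap (algebraMap L ℂ) r * s) = r * coeffFun φ s := by
  ext n
  have h1 : (coeffMap (algebraMap L ℂ) r).support ⊆ r.support := fun i hi h0 => hi (by
    show (coeffMap (algebraMap L ℂ) r).coeff i = 0
    rw [coeffMap_coeff, h0, map_zero])
  have h2 : (coeffFun φ s).support ⊆ s.support := fun i hi h0 => hi (by
    show (coeffFun φ s).coeff i = 0
    rw [coeffFun_coeff, h0, map_zero])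
  rw [coeffFun_coeff, HahnSeries.coeff_mul_left' r.isPWO_support h1,
    HahnSeries.coeff_mul_right' s.isPWO_support h2, map_sum]
  refine Finset.sum_congr rfl fun ij _ => ?_
  rw [coeffMap_coeff, coeffFun_coeff, ← Algebra.smul_def, map_smul, smul_eq_mul]

theorem coeffEmb_complex [Algebra ℚ L] (x : LaurentSeries ℚ) :
    coeffEmb ℂ x = coeffMap (algebraMap L ℂ) (coeffEmb L x) := by
  rw [coeffEmb, coeffEmb, coeffMap_coeffMap]
  exact coeffMap_congr (Subsingleton.elim _ _) x

/-- Functionals send the complex algebra of a set of rational series into the algebra over `L`. -/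
theorem coeffFun_mem_adjoin [Algebra ℚ L] (S : Set (LaurentSeries ℚ)) (φ : ℂ →ₗ[L] L)
    {a : LaurentSeries ℂ} (ha : a ∈ Algebra.adjoin ℂ (coeffEmb ℂ '' S)) :
    coeffFun φ a ∈ Algebra.adjoin L (coeffEmb L '' S) := by
  set A := Algebra.adjoin L (coeffEmb L '' S)
  set P := Submodule.span ℂ (Set.range fun c : A => coeffMap (algebraMap L ℂ) (c : LaurentSeries L))
  have hC : ∀ (c : ℂ) (x : LaurentSeries ℂ), x ∈ P → HahnSeries.C c * x ∈ P := fun c x hx => by
    rw [HahnSeries.C_mul_eq_smul]; exact P.smul_mem c hx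
  have hone : (1 : LaurentSeries ℂ) ∈ P := Submodule.subset_span ⟨1, by simp⟩
  have hmul : ∀ y ∈ P, ∀ z ∈ P, y * z ∈ P := by
    intro y hy z hz
    induction hy using Submodule.span_induction with
    | mem y hy =>
      induction hz using Submodule.span_induction with
      | mem z hz =>
        obtain ⟨c, rfl⟩ := hy
        obtain ⟨c', rfl⟩ := hz
        exact Submodule.subset_span ⟨c * c', by simp⟩
      | zero => rw [mul_zero]; exact P.zero_mem
      | add _ _ _ _ h h' => rw [mul_add]; exact P.add_mem h h'
      | smul b w _ h => rw [← HahnSeries.C_mul_eq_smul, mul_left_comm]; exact hC b _ h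
    | zero => rw [zero_mul]; exact P.zero_mem
    | add _ _ _ _ h h' => rw [add_mul]; exact P.add_mem h h'
    | smul b w _ h => rw [← HahnSeries.C_mul_eq_smul, mul_assoc]; exact hC b _ h
  have hP : a ∈ P := by
    induction ha using Algebra.adjoin_induction with
    | mem y hy =>
      obtain ⟨x, hx, rfl⟩ := hy
      exact Submodule.subset_span ⟨⟨_, Algebra.subset_adjoin ⟨x, hx, rfl⟩⟩,
        (coeffEmb_complex x).symm⟩
    | algebraMap c =>
      rw [algebraMap_laurentSeries_eq_single, ← HahnSeries.C_apply, ← mul_one (HahnSeries.C c)]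
      exact hC c _ hone
    | add y z _ _ hy hz => exact P.add_mem hy hz
    | mul y z _ _ hy hz => exact hmul y hy z hz
  have key : ∀ x ∈ P, ∀ b : ℂ, coeffFun φ (b • x) ∈ A := by
    intro x hx
    induction hx using Submodule.span_induction with
    | mem y hy =>
      obtain ⟨c, rfl⟩ := hy
      intro b
      have : coeffFun φ (b • coeffMap (algebraMap L ℂ) (c : LaurentSeries L)) =
          φ b • (c : LaurentSeries L) := by
        ext n
        simp only [coeffFun_coeff, HahnSeries.coeff_smul, coeffMap_coeff, smul_eq_mul]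
        rw [mul_comm, ← Algebra.smul_def, map_smul, smul_eq_mul, mul_comm]
      rw [this, ← HahnSeries.C_mul_eq_smul, HahnSeries.C_apply,
        ← algebraMap_laurentSeries_eq_single]
      exact A.mul_mem (A.algebraMap_mem _) c.2
    | zero =>
      intro b
      rw [smul_zero, show coeffFun φ (0 : LaurentSeries ℂ) = 0 from by ext n; simp [coeffFun_coeff]]
      exact A.zero_mem
    | add y z _ _ hy hz =>
      intro b
      rw [smul_add, show coeffFun φ (b • y + b • z) = coeffFun φ (b • y) + coeffFun φ (b • z) from by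
        ext n; simp [coeffFun_coeff, map_add]]
      exact A.add_mem (hy b) (hz b)
    | smul c y _ hy =>
      intro b
      rw [smul_smul]
      exact hy _
  simpa using key _ hP 1

end FA.Level
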