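import Fermat.Agent.Level.Emb
import Fermat.Agent.Level.Series

/-!
# Modular functions are rational in `j` and the separating element
-/

set_option autoImplicit false
set_option linter.style.haveILetI false
set_option linter.unusedSectionVars false
set_option synthInstance.maxHeartbeats 200000
set_option maxHeartbeats 1600000

noncomputable section

namespace FA.Level

open UpperHalfPlane hiding I
open Complex Filter Set CongruenceSubgroup ModularCurve FA.ModField IntermediateField
open scoped MatrixGroups Topology Manifold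

variable (V : Lvl)

/-- The two basic series. -/
def Lvl.pair : Set (LaurentSeries ℚ) := {jqModC ℚ, V.sepSer}

open Classical in
/-- The universal factor of the interpolation. -/
def Lvl.weight (z : ℍ) : ℂ :=
  ∏ i ∈ Finset.univ.erase (QuotientGroup.mk 1 : V.Cos), (V.sepFun z - V.cosVal V.sepFun i z)

theorem Lvl.weight_ne_zero : V.weight ≠ 0 := by
  classical
  intro h
  have hmd : ∀ i, MDiff (fun z => V.sepFun z - V.cosVal V.sepFun i z) := fun i =>
    V.sepFun_mem.1.sub (V.cosVal_mem_expFuns V.sepFun_mem i).1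
  suffices key : ∀ s : Finset V.Cos, (∀ i ∈ s, i ≠ QuotientGroup.mk 1) →
      (fun z => ∏ i ∈ s, (V.sepFun z - V.cosVal V.sepFun i z)) ≠ 0 by
    exact key (Finset.univ.erase (QuotientGroup.mk 1 : V.Cos))
      (fun i hi => (Finset.mem_erase.1 hi).1) h
  intro s
  induction s using Finset.induction with
  | empty => intro _ h0; simpa using congrFun h0 UpperHalfPlane.I
  | @insert a s has ih =>
    intro hs h0
    have hm : MDiff (fun z => ∏ i ∈ s, (V.sepFun z - V.cosVal V.sepFun i z)) := by
      have : ∀ s : Finset V.Cos, MDiff (fun z => ∏ i ∈ s, (V.sepFun z - V.cosVal V.sepFun i z)) := by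
        intro s
        induction s using Finset.induction with
        | empty => simpa using mdifferentiable_const
        | @insert b t hbt iht =>
          simp only [Finset.prod_insert hbt]
          exact (hmd b).mul iht
      exact this s
    simp only [Finset.prod_insert has] at h0
    rcases (UpperHalfPlane.mul_eq_zero_iff (hmd a) hm).1 h0 with h' | h'
    · exact V.sep_cosVal_ne (hs a (Finset.mem_insert_self a s)) h'
    · exact ih (fun i hi => hs i (Finset.mem_insert_of_mem hi)) h'

open Classical in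
/-- Lagrange interpolation. -/
theorem Lvl.exists_interp {f : ℍ → ℂ} (hf : f ∈ V.mf) :
    ∃ a ∈ Algebra.adjoin ℂ (coeffEmb ℂ '' V.pair),
      HasExp (qp 1) (fun z => f z * V.weight z) a := by
  have hS := V.sepFun_mem
  let poly : ℍ → Polynomial ℂ := fun z => ∑ i, Polynomial.C (V.cosVal f i z) *
    ∏ k ∈ Finset.univ.erase i, (Polynomial.X - Polynomial.C (V.cosVal V.sepFun k z))
  have hcoef : ∀ k, (fun z => (poly z).coeff k) ∈ expFuns V.M := by
    intro k
    let Q : Polynomial (expFuns V.M) := ∑ i,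
      Polynomial.C (⟨V.cosVal f i, V.cosVal_mem_expFuns hf i⟩ : expFuns V.M) *
        ∏ l ∈ Finset.univ.erase i, (Polynomial.X -
          Polynomial.C (⟨V.cosVal V.sepFun l, V.cosVal_mem_expFuns hS l⟩ : expFuns V.M))
    have : (fun z => (poly z).coeff k) = ((Q.coeff k : expFuns V.M) : ℍ → ℂ) := by
      funext z
      have h1 : Q.map ((Pi.evalRingHom (fun _ : ℍ => ℂ) z).comp (expFuns V.M).subtype) = poly z := by
        simp [Q, poly, Polynomial.map_sum, Polynomial.map_prod]
      rw [← h1, Polynomial.coeff_map]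
      rfl
    rw [this]
    exact (Q.coeff k).2
  have hinv : ∀ (g : SL(2, ℤ)) z, poly (g • z) = poly z := by
    intro g z
    simp only [poly, V.cosVal_smul hf, V.cosVal_smul hS]
    exact interp_perm (MulAction.toPerm g⁻¹) (fun i => Polynomial.C (V.cosVal f i z))
      (fun k => Polynomial.X - Polynomial.C (V.cosVal V.sepFun k z))
  have hP : ∀ k, ∃ P : Polynomial ℂ, ∀ z, (poly z).coeff k = P.eval (jfun z) := by
    intro k
    obtain ⟨hm, L, hL⟩ := hcoef k
    obtain ⟨L', hL'⟩ := hasExp_descend (f := fun z => (poly z).coeff k)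
      (fun z => by rw [hinv]) hL
    obtain ⟨P, hP⟩ := exists_polynomial_of_invariant (f := fun z => (poly z).coeff k)
      (fun g z => by rw [hinv]) hm hL'
    exact ⟨P, congrFun hP⟩
  choose P hP using hP
  set n := Fintype.card V.Cos
  have hdeg : ∀ z, (poly z).natDegree < n + 1 := fun z => by
    refine Nat.lt_succ_of_le (Polynomial.natDegree_sum_le_of_forall_le _ _ fun i _ => ?_)
    refine (Polynomial.natDegree_C_mul_le _ _).trans ?_
    rw [Polynomial.natDegree_finsetProd_X_sub_C_eq_card]
    exact Finset.card_le_univ _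
  set A := Algebra.adjoin ℂ (coeffEmb ℂ '' V.pair)
  have hjA : coeffEmb ℂ (jqModC ℚ) ∈ A :=
    Algebra.subset_adjoin ⟨_, Or.inl rfl, rfl⟩
  have hsA : coeffEmb ℂ V.sepSer ∈ A :=
    Algebra.subset_adjoin ⟨_, Or.inr rfl, rfl⟩
  have hjexp : HasExp (qp 1) jfun (coeffEmb ℂ (jqModC ℚ)) := by
    rw [coeffEmb, coeffMap_jqModC]; exact hasExp_jfun
  have hPexp : ∀ p : Polynomial ℂ, ∃ a ∈ A, HasExp (qp 1) (fun z => p.eval (jfun z)) a := by
    intro p
    induction p using Polynomial.induction_on' with
    | add p q hp hq =>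
      obtain ⟨a, ha, ha'⟩ := hp
      obtain ⟨b, hb, hb'⟩ := hq
      exact ⟨a + b, add_mem ha hb, (ha'.add hb').congr (funext fun z => by simp)⟩
    | monomial k c =>
      refine ⟨HahnSeries.C c * coeffEmb ℂ (jqModC ℚ) ^ k, mul_mem ?_ (pow_mem hjA k),
        ((hasExp_C c).mul (qp_ne_zero 1) (hjexp.pow (qp_ne_zero 1) k)).congr
          (funext fun z => by simp)⟩
      rw [HahnSeries.C_apply, ← algebraMap_laurentSeries_eq_single]
      exact A.algebraMap_mem c
  choose a ha ha' using hPexp
  refine ⟨∑ k ∈ Finset.range (n + 1), a (P k) * coeffEmb ℂ V.sepSer ^ k,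
    sum_mem fun k _ => mul_mem (ha _) (pow_mem hsA k),
    (hasExp_sum _ fun k _ => (ha' (P k)).mul (qp_ne_zero 1)
      (V.sep_exp.pow (qp_ne_zero 1) k)).congr (funext fun z => ?_)⟩
  rw [Finset.sum_apply]
  simp only [Pi.mul_apply, Pi.pow_apply, ← hP]
  rw [← Polynomial.eval_eq_sum_range' (hdeg z)]
  simp only [poly, Polynomial.eval_finsetSum, Polynomial.eval_mul, Polynomial.eval_C,
    Polynomial.eval_prod, Polynomial.eval_sub, Polynomial.eval_X, Lvl.weight]
  rw [Finset.sum_eq_single (QuotientGroup.mk 1 : V.Cos)]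
  · rw [V.cosVal_mk hf, inv_one, one_smul]
  · intro i _ hi
    refine mul_eq_zero_of_right _ (Finset.prod_eq_zero (i := (QuotientGroup.mk 1 : V.Cos))
      (Finset.mem_erase.2 ⟨Ne.symm hi, Finset.mem_univ _⟩) ?_)
    rw [V.cosVal_mk hS, inv_one, one_smul, sub_self]
  · exact fun h => absurd (Finset.mem_univ _) h

/-- The algebra generated over `L` by `j` and the separating element. -/
def Lvl.pairAlg (L : Type) [Field L] [Algebra ℚ L] : Subalgebra L (LaurentSeries L) :=
  Algebra.adjoin L (coeffEmb L '' V.pair)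

theorem Lvl.pairAlg_le (L : Type) [Field L] [Algebra ℚ L] : V.pairAlg L ≤ V.alg L :=
  Algebra.adjoin_mono (Set.image_mono (Set.insert_subset V.j_mem
    (Set.singleton_subset_iff.2 V.sep_mem)))

/-- A modular function with series over `L` is a quotient of polynomials in `j` and the separating
element with coefficients in `L`. -/
theorem Lvl.exists_pair_quotient {L : Type} [Field L] [Algebra ℚ L] [Algebra L ℂ] {R : ℍ → ℂ}
    (hR : R ∈ V.mf) (r : LaurentSeries L) (hr : HasExp (qp 1) R (coeffMap (algebraMap L ℂ) r)) :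
    ∃ a ∈ V.pairAlg L, ∃ b ∈ V.pairAlg L, b ≠ 0 ∧ r * b = a := by
  obtain ⟨a, ha, ha'⟩ := V.exists_interp hR
  obtain ⟨b, hb, hb'⟩ := V.exists_interp (f := 1) (one_mem _)
  have hb0 : b ≠ 0 := by
    intro h0
    rw [h0] at hb'
    refine V.weight_ne_zero ?_
    have := hb'.fun_unique hasExp_zero
    funext z
    simpa using congrFun this z
  have hser : a = coeffMap (algebraMap L ℂ) r * b := by
    refine ha'.unique (covers_qp 1) ((hr.mul (qp_ne_zero 1) hb').congr (funext fun z => ?_))
    simp
  obtain ⟨n₀, hn₀⟩ : ∃ n, b.coeff n ≠ 0 := ⟨_, HahnSeries.coeff_order_eq_zero.not.2 hb0⟩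
  obtain ⟨φ, hφ⟩ : ∃ φ : ℂ →ₗ[L] L, φ (b.coeff n₀) ≠ 0 :=
    Module.Projective.exists_dual_ne_zero L hn₀
  refine ⟨_, coeffFun_mem_adjoin V.pair φ ha, _, coeffFun_mem_adjoin V.pair φ hb, fun h => hφ ?_,
    ?_⟩
  · have := congrArg (fun c : LaurentSeries L => c.coeff n₀) h
    simpa [coeffFun_coeff] using this
  · rw [hser, coeffFun_coeffMap_mul]

/-- A modular function with series over `L` lies in the function field over `L`. -/
theorem Lvl.mem_fld_of_modFuns {L : Type} [Field L] [Algebra ℚ L] [Algebra L ℂ] {R : ℍ → ℂ}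
    (hR : R ∈ V.mf) (r : LaurentSeries L) (hr : HasExp (qp 1) R (coeffMap (algebraMap L ℂ) r)) :
    r ∈ V.fld L := by
  obtain ⟨a, ha, b, hb, hb0, hab⟩ := V.exists_pair_quotient hR r hr
  rw [eq_div_iff_mul_eq hb0 |>.2 hab]
  exact div_mem (V.alg_le L (V.pairAlg_le L ha)) (V.alg_le L (V.pairAlg_le L hb))

end FA.Level
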