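import Fermat.Agent.Level.Degree
import Fermat.Agent.ModField.Families

/-!
# The embedding families of a level above every value of `j`, and their places
-/

set_option autoImplicit false
set_option linter.style.haveILetI false
set_option linter.unusedSectionVars false
set_option synthInstance.maxHeartbeats 200000
set_option maxHeartbeats 1600000

noncomputable section

namespace FA.Level

open UpperHalfPlane hiding I
open Complex HahnSeries CongruenceSubgroup ModularCurve FA.ModField IntermediateField
open scoped MatrixGroups Topology Manifold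

variable (V : Lvl) (L : Type) [Field L] [Algebra ℚ L] [Algebra L ℂ]

/-- The family above the zero of `j - a`, where `a = j(τ)` and `g` generates the stabiliser. -/
def Lvl.pointFam (a : L) (τ : ℍ) (ha : jfun τ = algebraMap L ℂ a) (g : SL(2, ℤ)) (hg : g • τ = τ)
    (m : ℕ) (hm : 0 < m) (hord : (jLocal τ).order = m)
    (hζ : IsPrimitiveRoot (rotUnit g τ : ℂ) m) :
    EmbFamily L (V.fld L) ℂ (V.jFld L) (V.jF L - algebraMap L (V.fld L) a) V.Cos where
  m := m
  hm := hm
  σ := embCos (pointPar V τ)
  σ_inj := embCos_injective _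
  S := jLocal τ
  σ_y i := by
    have hexp : HasExp (pointPar V τ).T (fun x => jfun ((pointPar V τ).g₀ x))
        (jLocal τ + HahnSeries.C (algebraMap L ℂ a)) :=
      ((hasExp_jLocal τ).add (hasExp_C _)).congr (funext fun w => by
        show jfun (cayH τ w) - jfun τ + algebraMap L ℂ a = jfun (cayH τ w)
        rw [ha]; ring)
    rw [map_sub, AlgHom.commutes, FA.ModField.algebraMap_laurentC, embCos, emb_jF _ _ hexp,
      add_sub_cancel_right]
  order_S := hord
  ζ := rotUnit g τ
  hζ := hζ
  deck i := g⁻¹ • i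
  σ_deck i f := embCos_deck (pointPar V τ) g (discRot g τ) (rotUnit g τ)
    (fun w => smul_cayH hg w) (fun _ => rfl) i f
  L_eq := by
    apply le_antisymm <;> rw [adjoin_simple_le_iff]
    · have h := add_mem (mem_adjoin_simple_self L
        (V.jF L - algebraMap L (V.fld L) a))
        (IntermediateField.algebraMap_mem L⟮V.jF L - algebraMap L (V.fld L) a⟯ a)
      rwa [sub_add_cancel] at h
    · exact sub_mem (mem_adjoin_simple_self L _) (IntermediateField.algebraMap_mem _ _)
  finite := V.finite_jFld L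
  card_eq := (V.finrank_jFld L).symm

/-- The family above the pole of `j`. -/
def Lvl.cuspFam : EmbFamily L (V.fld L) ℂ (V.jFld L) (V.jF L)⁻¹ V.Cos where
  m := V.M
  hm := Nat.pos_of_ne_zero V.M_ne
  σ := embCos (cuspPar V)
  σ_inj := embCos_injective _
  S := (qExpand ℂ V.M (jqModC ℂ))⁻¹
  σ_y i := by rw [map_inv₀, embCos, emb_jF _ _ (exists_cusp_series V)]
  order_S := by
    rw [order_inv', ← twist_one_apply (jqModC ℂ), order_qExpand_twist_jq, neg_neg]
  ζ := zetaN V.M
  hζ := zetaN_prim V.M
  deck i := ModularGroup.T⁻¹ • i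
  σ_deck i f := embCos_deck (cuspPar V) ModularGroup.T (fun z : ℍ => ModularGroup.T • z) (zetaN V.M)
    (fun _ => rfl) (fun z => qp_T_smul V.M z) i f
  L_eq := by
    apply le_antisymm <;> rw [adjoin_simple_le_iff]
    · have h := inv_mem (mem_adjoin_simple_self L (V.jF L)⁻¹)
      rwa [inv_inv] at h
    · exact inv_mem (mem_adjoin_simple_self L _)
  finite := V.finite_jFld L
  card_eq := (V.finrank_jFld L).symm

theorem Lvl.exists_fam (a : L) :
    Nonempty (EmbFamily L (V.fld L) ℂ (V.jFld L) (V.jF L - algebraMap L (V.fld L) a) V.Cos) := by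
  rcases eq_or_ne a 0 with rfl | h0
  · obtain ⟨g, hg⟩ : ∃ g : SL(2, ℤ), g = ModularGroup.S * ModularGroup.T := ⟨_, rfl⟩
    exact ⟨V.pointFam L 0 rho (by rw [jfun_rho, map_zero]) g (hg ▸ ST_smul_rho) 3 (by norm_num)
      order_jLocal_rho (rotUnit_rho hg)⟩
  rcases eq_or_ne a 1728 with rfl | h1
  · exact ⟨V.pointFam L 1728 UpperHalfPlane.I (by rw [jfun_I, map_ofNat]) ModularGroup.S S_smul_I
      2 (by norm_num) order_jLocal_I rotUnit_I⟩
  obtain ⟨τ, hτ⟩ := exists_jfun_eq (algebraMap L ℂ a)
  have hj0 : jfun τ ≠ 0 := by rw [hτ]; exact (_root_.map_ne_zero _).2 h0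
  have hj1 : jfun τ ≠ 1728 := by
    rw [hτ, ← map_ofNat (algebraMap L ℂ) 1728]
    exact fun h => h1 ((algebraMap L ℂ).injective h)
  exact ⟨V.pointFam L a τ hτ 1 (one_smul _ τ) 1 one_pos (order_jLocal_general hj0 hj1)
    (rotUnit_one τ)⟩

/-- A chosen family above `j = a`. -/
def Lvl.fam (a : L) :
    EmbFamily L (V.fld L) ℂ (V.jFld L) (V.jF L - algebraMap L (V.fld L) a) V.Cos :=
  (V.exists_fam L a).some

variable [IsAlgClosed L]

/-- Every place is induced by one of the families. -/
theorem Lvl.exists_fam_of_place (v : AlgebraicCurve.Place L (V.fld L)) :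
    (∃ i, (V.cuspFam L).pl i = v) ∨ ∃ (a : L) (i : V.Cos), (V.fam L a).pl i = v := by
  rcases lt_or_ge (v.ord (V.jF L)) 0 with h | h
  · exact Or.inl ((V.cuspFam L).pl_surjective v (by rw [v.ord_inv]; omega))
  · obtain ⟨a, ha⟩ := exists_residue (V.cuspFam L).isCurve v (mem_place_of_ord_nonneg v h)
    refine Or.inr ⟨a, (V.fam L a).pl_surjective v (ha.resolve_left fun heq => ?_)⟩
    exact V.jF_transcendental L (heq ▸ isAlgebraic_algebraMap a)

end FA.Level
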