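import Fermat.Agent.Level.Gamma0
import Fermat.Agent.Level.Families
import Fermat.Agent.ModField.Congruence.Divisors

/-!
# The two images at level `M` of an elliptic point of order three of level `M ℓ`

Let `E` be an element of order six of `Γ₀(M ℓ)` fixing `z`.  An element `a + b E` of determinant
`ℓ` whose first column is divisible by `ℓ` is `γ · diag(ℓ, 1)` with `γ ∈ Γ₀(M)`, and it fixes `z`:
the functions `f(ℓ w)` and `f(w)` of level `M` differ near `z` by a rotation, so the point has the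
same image under the two degeneracy maps.
-/

set_option autoImplicit false
set_option linter.style.haveILetI false
set_option linter.unusedSectionVars false
set_option synthInstance.maxHeartbeats 200000
set_option maxHeartbeats 800000

noncomputable section

namespace FA.Level

open UpperHalfPlane hiding I
open Complex HahnSeries CongruenceSubgroup ModularCurve AlgebraicCurve FA.ModField
open scoped MatrixGroups ComplexConjugate

/-- A small solution of a congruence `a + b t ≡ 0`, `t² - t + 1 ≡ 0` modulo `ℓ`. -/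
theorem exists_norm_eq_prime {ℓ : ℕ} (hℓ : ℓ.Prime) (hℓ2 : ℓ ≠ 2) {t : ℤ}
    (ht : (ℓ : ℤ) ∣ t * t - t + 1) :
    ∃ a b : ℤ, (ℓ : ℤ) ∣ a + b * t ∧ a * a + a * b + b * b = ℓ := by
  haveI : NeZero ℓ := ⟨hℓ.ne_zero⟩
  set k := Nat.sqrt ℓ with hk
  let f : Fin (k + 1) × Fin (k + 1) → ZMod ℓ := fun x => ((x.1 : ℕ) : ZMod ℓ) + ((x.2 : ℕ) : ZMod ℓ) * t
  have hcard : Fintype.card (ZMod ℓ) < Fintype.card (Fin (k + 1) × Fin (k + 1)) := by
    rw [ZMod.card, Fintype.card_prod, Fintype.card_fin, ← pow_two]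
    exact Nat.lt_succ_sqrt' ℓ
  obtain ⟨x, y, hxy, hf⟩ := Fintype.exists_ne_map_eq_of_card_lt f hcard
  set a : ℤ := ((x.1 : ℕ) : ℤ) - (y.1 : ℕ) with ha
  set b : ℤ := ((x.2 : ℕ) : ℤ) - (y.2 : ℕ) with hb
  have hdiv : (ℓ : ℤ) ∣ a + b * t := by
    rw [← ZMod.intCast_zmod_eq_zero_iff_dvd]
    simp only [f] at hf
    push_cast [ha, hb]
    linear_combination hf
  have hne : a ≠ 0 ∨ b ≠ 0 := by
    by_contra h
    push Not at h
    refine hxy (Prod.ext (Fin.ext ?_) (Fin.ext ?_))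
    · have := h.1; omega
    · have := h.2; omega
  have hsq : ∀ c : ℤ, c ≤ k → -(k : ℤ) ≤ c → c * c < ℓ := by
    intro c h1 h2
    have hk2 : k ^ 2 ≤ ℓ := Nat.sqrt_le' ℓ
    have hlt : k ^ 2 < ℓ := lt_of_le_of_ne hk2 fun e => by
      have hk' : k ∣ ℓ := ⟨k, by rw [← e, pow_two]⟩
      rcases hℓ.eq_one_or_self_of_dvd k hk' with h | h
      · rw [h, one_pow] at e; exact hℓ.ne_one e.symm
      · rw [h] at e; have := hℓ.two_le; nlinarith
    have h3 : ((k : ℤ)) * k < ℓ := by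
      have : ((k ^ 2 : ℕ) : ℤ) < ℓ := by exact_mod_cast hlt
      push_cast at this
      linarith [pow_two (k : ℤ)]
    nlinarith
  have ha2 : a * a < ℓ := hsq a (by have := x.1.2; omega) (by have := y.1.2; omega)
  have hb2 : b * b < ℓ := hsq b (by have := x.2.2; omega) (by have := y.2.2; omega)
  refine ⟨a, b, hdiv, ?_⟩
  obtain ⟨c, hc⟩ := hdiv
  obtain ⟨d, hd⟩ := ht
  have hN : (ℓ : ℤ) ∣ a * a + a * b + b * b := by
    rw [show a = ℓ * c - b * t by linarith]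
    exact ⟨ℓ * c * c - 2 * c * b * t + c * b + b * b * d, by linear_combination (b * b) * hd⟩
  obtain ⟨m, hm⟩ := hN
  have hpos : 0 < a * a + a * b + b * b := by
    rcases hne with h | h <;> nlinarith [mul_self_pos.2 h, sq_nonneg (a + b), sq_nonneg a,
      sq_nonneg b]
  have hlt : a * a + a * b + b * b < 3 * ℓ := by nlinarith [sq_nonneg (a - b)]
  have hℓpos : (0 : ℤ) < ℓ := by exact_mod_cast hℓ.pos
  have hm1 : m = 1 ∨ m = 2 := by
    have h1 : 0 < m := by by_contra h; nlinarith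
    have h2 : m < 3 := by by_contra h; nlinarith
    omega
  rcases hm1 with rfl | rfl
  · linarith
  exfalso
  obtain ⟨e, he⟩ : (2 : ℤ) ∣ a * a + a * b + b * b := ⟨ℓ, by linarith⟩
  have hodd : (ℓ : ℤ) % 2 = 1 := by
    have := hℓ.eq_two_or_odd.resolve_left hℓ2
    omega
  clear_value a b
  obtain ⟨a', rfl | rfl⟩ := Int.even_or_odd' a <;> obtain ⟨b', rfl | rfl⟩ := Int.even_or_odd' b <;>
    ring_nf at hm <;> omega

section Algebra

variable (M ℓ : ℕ) [NeZero M] [NeZero ℓ] [NeZero (M * ℓ)]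
variable (L : Type) [Field L] [Algebra ℚ L]

theorem coe_alpha_mem_alg (a : (lvlGamma0 M).alg L) :
    (a : LaurentSeries L) ∈ (lvlGamma0 (M * ℓ)).alg L := by
  refine (Algebra.adjoin_mono (Set.image_mono ?_)) a.2
  rintro _ ⟨d, hd0, hd, rfl⟩
  exact ⟨d, hd0, hd.mul_right ℓ, rfl⟩

theorem coe_beta_mem_alg (a : (lvlGamma0 M).alg L) :
    qExpand L ℓ (a : LaurentSeries L) ∈ (lvlGamma0 (M * ℓ)).alg L := by
  obtain ⟨a, ha⟩ := a
  induction ha using Algebra.adjoin_induction with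
  | mem x hx =>
    obtain ⟨_, ⟨d, hd0, hd, rfl⟩, rfl⟩ := hx
    haveI := hd0
    refine Algebra.subset_adjoin ⟨qExpand ℚ (d * ℓ) jq,
      ⟨d * ℓ, inferInstance, Nat.mul_dvd_mul_right hd ℓ, rfl⟩, ?_⟩
    show coeffEmb L (qExpand ℚ (d * ℓ) jq) = qExpand L ℓ (coeffEmb L (qExpand ℚ d jq))
    rw [coeffEmb, coeffMap_qExpand, coeffMap_qExpand, qExpand_qExpand]
    exact qExpand_congr (mul_comm d ℓ) _
  | algebraMap c =>
    show qExpand L ℓ (algebraMap L (LaurentSeries L) c) ∈ _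
    rw [algebraMap_laurentSeries_eq_single, qExpand_single, mul_zero,
      ← algebraMap_laurentSeries_eq_single]
    exact Subalgebra.algebraMap_mem _ _
  | add x y _ _ hx hy => rw [map_add]; exact add_mem hx hy
  | mul x y _ _ hx hy => rw [map_mul]; exact mul_mem hx hy

variable [Algebra L ℂ]

theorem funHom_alpha (a : (lvlGamma0 M).alg L) :
    (lvlGamma0 (M * ℓ)).funHom L ⟨_, coe_alpha_mem_alg M ℓ L a⟩ = (lvlGamma0 M).funHom L a :=
  (lvlGamma0 (M * ℓ)).fn_eq L ((lvlGamma0 M).funHom_exp L a)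

theorem funHom_beta (a : (lvlGamma0 M).alg L) :
    (lvlGamma0 (M * ℓ)).funHom L ⟨_, coe_beta_mem_alg M ℓ L a⟩ =
      fun z => (lvlGamma0 M).funHom L a (scaleH ℓ z) := by
  refine (lvlGamma0 (M * ℓ)).fn_eq L ?_
  show HasExp _ _ (coeffMap (algebraMap L ℂ) (qExpand L ℓ (a : LaurentSeries L)))
  rw [coeffMap_qExpand]
  have h := ((lvlGamma0 M).funHom_exp L a).comp (U := qp 1) (scaleH ℓ) ℓ 1
    (fun z => by simp [qp_scale])
  rwa [twist_one_apply] at h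

end Algebra

/-- An integral Möbius transformation fixing `τ` is a rotation in the Cayley parameter. -/
theorem frac_cay {τ : ℍ} {a b c d : ℂ} (hca : conj a = a) (hcb : conj b = b) (hcc : conj c = c)
    (hcd : conj d = d) (hfix : a * τ + b = (τ : ℂ) * (c * τ + d)) (hden : c * (τ : ℂ) + d ≠ 0)
    {w : ℂ} (hw : ‖w‖ < 1) :
    (a * cay τ w + b) = cay τ (conj (c * (τ : ℂ) + d) / (c * τ + d) * w) * (c * cay τ w + d) := by
  have hfix' : a * conj (τ : ℂ) + b = conj (τ : ℂ) * (c * conj (τ : ℂ) + d) := by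
    have := congrArg conj hfix
    simpa [hca, hcb, hcc, hcd, map_add, map_mul] using this
  have he : conj (c * (τ : ℂ) + d) = c * conj (τ : ℂ) + d := by simp [hcc, hcd]
  have hw1 : 1 - w ≠ 0 := one_sub_ne_zero hw
  have hw' : ‖conj (c * (τ : ℂ) + d) / (c * τ + d) * w‖ < 1 := by
    rw [norm_mul, norm_div, RCLike.norm_conj, div_self (norm_ne_zero_iff.2 hden), one_mul]
    exact hw
  have h3 := one_sub_ne_zero hw'
  rw [he] at h3 ⊢
  simp only [cay]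
  set e := c * (τ : ℂ) + d with hedef
  set e' := c * conj (τ : ℂ) + d with he'def
  have h4 : e - e' * w ≠ 0 := by
    intro h; apply h3; field_simp; linear_combination h
  have e1 : a * (((τ : ℂ) - conj (τ : ℂ) * w) / (1 - w)) + b =
      ((τ : ℂ) * e - w * (conj (τ : ℂ) * e')) / (1 - w) := by
    rw [eq_div_iff hw1, add_mul, mul_assoc, div_mul_cancel₀ _ hw1]
    linear_combination hfix - w * hfix'
  have e2 : c * (((τ : ℂ) - conj (τ : ℂ) * w) / (1 - w)) + d = (e - e' * w) / (1 - w) := by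
    rw [eq_div_iff hw1, add_mul, mul_assoc, div_mul_cancel₀ _ hw1, hedef, he'def]
    ring
  have e3 : ((τ : ℂ) - conj (τ : ℂ) * (e' / e * w)) / (1 - e' / e * w) =
      ((τ : ℂ) * e - w * (conj (τ : ℂ) * e')) / (e - e' * w) := by
    rw [div_eq_div_iff h3 h4]
    field_simp
  rw [e1, e2, e3, ← mul_div_assoc, div_mul_cancel₀ _ h4]

/-- The point-level identity: near `z` fixed by `E`, `γ (ℓ u)` is a rotation of `u`. -/
theorem exists_rot (M ℓ : ℕ) [NeZero M] (hℓ : ℓ.Prime) (hℓ2 : ℓ ≠ 2) [NeZero ℓ] [NeZero (M * ℓ)]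
    {g : SL(2, ℤ)} (hg : g = ModularGroup.S * ModularGroup.T) (h : SL(2, ℤ))
    (hmem : h⁻¹ * g * h ∈ Gamma0 (M * ℓ)) :
    ∃ γ ∈ Gamma0 M, ∃ μ : ℂˣ, ∃ rot : Disc → Disc, (∀ w, (rot w : ℂ) = μ * (w : ℂ)) ∧
      ∀ w, γ • scaleH ℓ (h⁻¹ • cayH rho w) = h⁻¹ • cayH rho (rot w) := by
  -- the entries
  set E : SL(2, ℤ) := h⁻¹ * g * h with hEdef
  have hgm : (g : Matrix (Fin 2) (Fin 2) ℤ) = !![0, -1; 1, 1] := by
    subst hg
    rw [Matrix.SpecialLinearGroup.coe_mul, ModularGroup.coe_S, ModularGroup.coe_T]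
    simp
  have hhE : (h : Matrix (Fin 2) (Fin 2) ℤ) * (E : Matrix (Fin 2) (Fin 2) ℤ) =
      !![0, -1; 1, 1] * (h : Matrix (Fin 2) (Fin 2) ℤ) := by
    rw [← hgm, ← Matrix.SpecialLinearGroup.coe_mul, ← Matrix.SpecialLinearGroup.coe_mul, hEdef]
    congr 1
    rw [← mul_assoc, ← mul_assoc, mul_inv_cancel, one_mul]
  have htr : E 0 0 + E 1 1 = 1 := by
    have h1 := congrArg Matrix.trace
      (show (E : Matrix (Fin 2) (Fin 2) ℤ) =
        ((h⁻¹ : SL(2, ℤ)) : Matrix (Fin 2) (Fin 2) ℤ) * g * h by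
        rw [hEdef, Matrix.SpecialLinearGroup.coe_mul, Matrix.SpecialLinearGroup.coe_mul])
    rw [Matrix.trace_mul_comm, ← mul_assoc, ← Matrix.SpecialLinearGroup.coe_mul, mul_inv_cancel,
      Matrix.SpecialLinearGroup.coe_one, one_mul, hgm, Matrix.trace_fin_two,
      Matrix.trace_fin_two] at h1
    simpa using h1
  have hdetE : E 0 0 * E 1 1 - E 0 1 * E 1 0 = 1 := by
    have := E.2
    rwa [Matrix.det_fin_two] at this
  have hc : ((M : ℤ) * ℓ) ∣ E 1 0 := by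
    have := (Gamma0_mem).1 hmem
    rw [ZMod.intCast_zmod_eq_zero_iff_dvd] at this
    push_cast at this
    exact this
  obtain ⟨ce, hce⟩ := hc
  obtain ⟨a, b, ⟨A', hA'⟩, hN⟩ := exists_norm_eq_prime hℓ hℓ2 (t := E 0 0)
    ⟨-(E 0 1 * M * ce), by
      rw [hce, show E 1 1 = 1 - E 0 0 by linarith] at hdetE
      linear_combination (-1 : ℤ) * hdetE⟩
  have hℓ0 : (ℓ : ℤ) ≠ 0 := Int.natCast_ne_zero.2 hℓ.ne_zero
  let γ : SL(2, ℤ) := ⟨!![A', b * E 0 1; b * M * ce, a + b * E 1 1], by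
    rw [Matrix.det_fin_two_of]
    refine mul_left_cancel₀ hℓ0 ?_
    rw [show E 1 1 = 1 - E 0 0 by linarith] at hdetE ⊢
    rw [hce] at hdetE
    linear_combination (-(a + b * (1 - E 0 0))) * hA' + hN + b * b * hdetE⟩
  have hγ : γ ∈ Gamma0 M := by
    rw [Gamma0_mem, ZMod.intCast_zmod_eq_zero_iff_dvd]
    exact ⟨b * ce, by simp [γ]; ring⟩
  have hab : b ≠ 0 ∨ a ≠ 0 := by
    by_contra hne
    push Not at hne
    rw [hne.1, hne.2] at hN
    simp at hN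
    exact hℓ.ne_zero (by exact_mod_cast hN.symm)
  set e : ℂ := (b : ℂ) * rho + ((a : ℂ) + b) with he
  have he0 : e ≠ 0 := by
    intro h0
    rw [he] at h0
    have hi := congrArg Complex.im h0
    simp at hi
    have hb0 : b = 0 := by
      rcases hi with hi | hi
      · exact_mod_cast hi
      · exact absurd hi rho.im_pos.ne'
    rw [hb0] at h0
    simp at h0
    rcases hab with h1 | h1
    · exact h1 hb0
    · exact h1 (by exact_mod_cast h0)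
  have hμ : ‖conj e / e‖ = 1 := by
    rw [norm_div, RCLike.norm_conj, div_self (norm_ne_zero_iff.2 he0)]
  let μ : ℂˣ := Units.mk0 (conj e / e) (fun h0 => by rw [h0, norm_zero] at hμ; exact zero_ne_one hμ)
  let rot : Disc → Disc := fun w => ⟨(μ : ℂ) * w, mul_ne_zero μ.ne_zero w.2.1, by
    rw [norm_mul, show ‖(μ : ℂ)‖ = 1 from hμ, one_mul]; exact w.2.2⟩
  refine ⟨γ, hγ, μ, rot, fun _ => rfl, fun w => ?_⟩
  set u : ℍ := h⁻¹ • cayH rho w
  have hu : h • u = cayH rho w := smul_inv_smul h _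
  rw [eq_inv_smul_iff]
  refine UpperHalfPlane.ext ?_
  -- matrix identities
  have hid : ∀ i j, ((h : Matrix (Fin 2) (Fin 2) ℤ) * E) i j =
      ((!![0, -1; 1, 1] : Matrix (Fin 2) (Fin 2) ℤ) * h) i j := fun i j => by rw [hhE]
  have h00 := hid 0 0
  have h01 := hid 0 1
  have h10 := hid 1 0
  have h11 := hid 1 1
  simp [Matrix.mul_apply, Fin.sum_univ_two] at h00 h01 h10 h11
  have hsmul : ∀ (g' : SL(2, ℤ)) (z : ℍ), ((g' • z : ℍ) : ℂ) =
      (((g' 0 0 : ℤ) : ℂ) * z + ((g' 0 1 : ℤ) : ℂ)) /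
        (((g' 1 0 : ℤ) : ℂ) * z + ((g' 1 1 : ℤ) : ℂ)) := fun g' z => by
    rw [UpperHalfPlane.coe_specialLinearGroup_apply]
    simp
  have hne : ∀ (g' : SL(2, ℤ)) (z : ℍ), ((g' 1 0 : ℤ) : ℂ) * z + ((g' 1 1 : ℤ) : ℂ) ≠ 0 :=
    fun g' z => by
      have := denom_ne_zero (g' : GL (Fin 2) ℝ) z
      simpa [denom] using this
  have huv : (((h 0 0 : ℤ) : ℂ) * (u : ℂ) + ((h 0 1 : ℤ) : ℂ)) =
      cay rho w * (((h 1 0 : ℤ) : ℂ) * (u : ℂ) + ((h 1 1 : ℤ) : ℂ)) := by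
    have h1 := congrArg (fun z : ℍ => (z : ℂ)) hu
    rw [hsmul, div_eq_iff (hne h u)] at h1
    exact h1
  have hrot := frac_cay (τ := rho) (a := (a : ℂ)) (b := -(b : ℂ)) (c := (b : ℂ))
    (d := (a : ℂ) + b) (map_intCast _ a) (by rw [map_neg, map_intCast]) (map_intCast _ b)
    (by rw [map_add, map_intCast, map_intCast]) (by linear_combination (-(b : ℂ)) * rho_sq) he0 w.2.2
  show _ = cay rho ((μ : ℂ) * w)
  rw [hsmul h]
  have hv : ((γ • scaleH ℓ u : ℍ) : ℂ) =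
      (((γ 0 0 : ℤ) : ℂ) * ((ℓ : ℂ) * u) + ((γ 0 1 : ℤ) : ℂ)) /
        (((γ 1 0 : ℤ) : ℂ) * ((ℓ : ℂ) * u) + ((γ 1 1 : ℤ) : ℂ)) := by
    rw [hsmul, coe_scaleH]
  have hD : ((γ 1 0 : ℤ) : ℂ) * ((ℓ : ℂ) * u) + ((γ 1 1 : ℤ) : ℂ) ≠ 0 := by
    simpa [coe_scaleH] using hne γ (scaleH ℓ u)
  have hbot := hne h (γ • scaleH ℓ u)
  rw [hv] at hbot ⊢
  rw [div_eq_iff hbot]
  have hA : ((A' : ℤ) : ℂ) * (ℓ : ℂ) = (a : ℂ) + (b : ℂ) * ((E 0 0 : ℤ) : ℂ) := by
    exact_mod_cast (show A' * (ℓ : ℤ) = a + b * E 0 0 by linarith)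
  have hC : ((E 1 0 : ℤ) : ℂ) = (M : ℂ) * ℓ * (ce : ℂ) := by exact_mod_cast hce
  simp only [γ, Matrix.of_apply, Matrix.cons_val', Matrix.cons_val_zero, Matrix.cons_val_one,
    Matrix.cons_val_fin_one, Matrix.empty_val'] at hD ⊢
  push_cast at hD ⊢
  have e00 : ((h 0 0 : ℤ) : ℂ) * ((E 0 0 : ℤ) : ℂ) + ((h 0 1 : ℤ) : ℂ) * ((E 1 0 : ℤ) : ℂ) =
      -((h 1 0 : ℤ) : ℂ) := by exact_mod_cast h00
  have e01 : ((h 0 0 : ℤ) : ℂ) * ((E 0 1 : ℤ) : ℂ) + ((h 0 1 : ℤ) : ℂ) * ((E 1 1 : ℤ) : ℂ) =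
      -((h 1 1 : ℤ) : ℂ) := by exact_mod_cast h01
  have e10 : ((h 1 0 : ℤ) : ℂ) * ((E 0 0 : ℤ) : ℂ) + ((h 1 1 : ℤ) : ℂ) * ((E 1 0 : ℤ) : ℂ) =
      ((h 0 0 : ℤ) : ℂ) + ((h 1 0 : ℤ) : ℂ) := by exact_mod_cast h10
  have e11 : ((h 1 0 : ℤ) : ℂ) * ((E 0 1 : ℤ) : ℂ) + ((h 1 1 : ℤ) : ℂ) * ((E 1 1 : ℤ) : ℂ) =
      ((h 0 1 : ℤ) : ℂ) + ((h 1 1 : ℤ) : ℂ) := by exact_mod_cast h11
  set P := ((h 1 0 : ℤ) : ℂ) * (u : ℂ) + ((h 1 1 : ℤ) : ℂ) with hP
  have hnum : ((h 0 0 : ℤ) : ℂ) * ((A' : ℂ) * ((ℓ : ℂ) * u) + (b : ℂ) * ((E 0 1 : ℤ) : ℂ)) +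
      ((h 0 1 : ℤ) : ℂ) * ((b : ℂ) * M * ce * ((ℓ : ℂ) * u) + ((a : ℂ) + b * ((E 1 1 : ℤ) : ℂ))) =
      P * ((a : ℂ) * cay rho w - b) := by
    rw [hC] at e00
    linear_combination ((h 0 0 : ℤ) : ℂ) * (u : ℂ) * hA + (b : ℂ) * (u : ℂ) * e00 + (b : ℂ) * e01 +
      (a : ℂ) * huv + (b : ℂ) * hP
  have hdenom : ((h 1 0 : ℤ) : ℂ) * ((A' : ℂ) * ((ℓ : ℂ) * u) + (b : ℂ) * ((E 0 1 : ℤ) : ℂ)) +
      ((h 1 1 : ℤ) : ℂ) * ((b : ℂ) * M * ce * ((ℓ : ℂ) * u) + ((a : ℂ) + b * ((E 1 1 : ℤ) : ℂ))) =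
      P * ((b : ℂ) * cay rho w + ((a : ℂ) + b)) := by
    rw [hC] at e10
    linear_combination ((h 1 0 : ℤ) : ℂ) * (u : ℂ) * hA + (b : ℂ) * (u : ℂ) * e10 + (b : ℂ) * e11 +
      (b : ℂ) * huv - ((a : ℂ) + b) * hP
  rw [show (μ : ℂ) = conj e / e from rfl, he]
  set Cy := cay rho (conj ((b : ℂ) * rho + ((a : ℂ) + b)) / ((b : ℂ) * rho + ((a : ℂ) + b)) * w)
  rw [← mul_div_assoc, ← mul_div_assoc, div_add' _ _ _ hD, div_add' _ _ _ hD, ← mul_div_assoc,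
    div_left_inj' hD]
  linear_combination hnum - Cy * hdenom + P * hrot

variable (M ℓ : ℕ) [NeZero M] [hℓ : Fact ℓ.Prime] [NeZero ℓ] [NeZero (M * ℓ)]
variable (L : Type) [Field L] [Algebra ℚ L] [Algebra L ℂ] [IsAlgClosed L]

/-- At an embedding fixed by the deck transformation above `j = 0` a function of level `M` and its
image under `f(z) ↦ f(ℓ z)` have the same order. -/
theorem order_emb_beta_eq_alpha (hℓ2 : ℓ ≠ 2) {g : SL(2, ℤ)}
    (hg : g = ModularGroup.S * ModularGroup.T) (h : SL(2, ℤ))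
    (hmem : h⁻¹ * g * h ∈ Gamma0 (M * ℓ)) (f : levelField M L) :
    (emb (L := L) (pointPar (lvlGamma0 (M * ℓ)) rho) h⁻¹ (heckeBetaBar L M ℓ f)).order =
      (emb (L := L) (pointPar (lvlGamma0 (M * ℓ)) rho) h⁻¹ (heckeAlphaBar L M ℓ f)).order := by
  obtain ⟨γ, hγ, μ, rot, hrot, hpt⟩ := exists_rot M ℓ hℓ.out hℓ2 hg h hmem
  set V := lvlGamma0 (M * ℓ)
  set P := pointPar V rho
  have key : ∀ a : (lvlGamma0 M).alg L,
      emb (L := L) P h⁻¹ (heckeBetaBar L M ℓ ((lvlGamma0 M).toFld L a)) =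
        twist μ (emb (L := L) P h⁻¹ (heckeAlphaBar L M ℓ ((lvlGamma0 M).toFld L a))) := by
    intro a
    rw [show heckeBetaBar L M ℓ ((lvlGamma0 M).toFld L a) =
        V.toFld L ⟨_, coe_beta_mem_alg M ℓ L a⟩ from Subtype.ext (coe_heckeBetaBar M ℓ _),
      show heckeAlphaBar L M ℓ ((lvlGamma0 M).toFld L a) =
        V.toFld L ⟨_, coe_alpha_mem_alg M ℓ L a⟩ from Subtype.ext (coe_heckeAlphaBar M ℓ _),
      emb_toFld, emb_toFld]
    refine expAt_eq ?_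
    have h1 := (expAt_spec P h⁻¹ (⟨_, coe_alpha_mem_alg M ℓ L a⟩ : V.alg L)).comp
      (U := P.T) rot 1 μ (fun w => by rw [pow_one]; exact hrot w)
    rw [qExpand_one_apply] at h1
    refine h1.congr (funext fun w => ?_)
    rw [funHom_alpha, funHom_beta]
    show (lvlGamma0 M).funHom L a (h⁻¹ • cayH rho (rot w)) = _
    rw [← hpt w]
    exact ((lvlGamma0 M).funHom_mem L a).2.1 γ hγ _
  obtain ⟨a, b, hb, hab⟩ := (lvlGamma0 M).exists_fraction L f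
  have hb0 : (lvlGamma0 M).toFld L b ≠ 0 := fun h0 =>
    hb ((lvlGamma0 M).toFld_injective L (h0.trans (map_zero _).symm))
  let φ₁ : levelField M L →+* LaurentSeries ℂ :=
    (emb (L := L) P h⁻¹).toRingHom.comp (heckeBetaBar L M ℓ).toRingHom
  let φ₂ : levelField M L →+* LaurentSeries ℂ :=
    (twist μ).comp ((emb (L := L) P h⁻¹).toRingHom.comp (heckeAlphaBar L M ℓ).toRingHom)
  have key' : ∀ c, φ₁ ((lvlGamma0 M).toFld L c) = φ₂ ((lvlGamma0 M).toFld L c) := key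
  obtain ⟨bF, hbF⟩ : ∃ x : levelField M L, x = (lvlGamma0 M).toFld L b := ⟨_, rfl⟩
  obtain ⟨aF, haF⟩ : ∃ x : levelField M L, x = (lvlGamma0 M).toFld L a := ⟨_, rfl⟩
  have hab' : f * bF = aF := by rw [hbF, haF]; exact hab
  have ka : φ₁ aF = φ₂ aF := haF ▸ key' a
  have kb : φ₁ bF = φ₂ bF := hbF ▸ key' b
  have hf : φ₁ f = φ₂ f := by
    have h2 := congrArg φ₁ hab'
    have h3 := congrArg φ₂ hab'
    rw [map_mul] at h2 h3
    rw [← ka, ← kb] at h3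
    exact mul_right_cancel₀ ((_root_.map_ne_zero φ₁).2 (hbF ▸ hb0)) (h2.trans h3.symm)
  change emb (L := L) P h⁻¹ (heckeBetaBar L M ℓ f) =
    twist μ (emb (L := L) P h⁻¹ (heckeAlphaBar L M ℓ f)) at hf
  rw [hf, order_twist]

/-- **An elliptic point of order three of level `M ℓ` has the same image under both degeneracy
maps.** -/
theorem ord_beta_eq_ord_alpha (hℓ2 : ℓ ≠ 2) (v : Place L (levelField (M * ℓ) L))
    (hpos : 0 < v.ord (levelJ (M * ℓ) L)) (h3 : ¬ (3 : ℤ) ∣ v.ord (levelJ (M * ℓ) L))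
    (f : levelField M L) :
    v.ord (heckeBetaBar L M ℓ f) = v.ord (heckeAlphaBar L M ℓ f) := by
  set V := lvlGamma0 (M * ℓ)
  obtain ⟨g, hg⟩ : ∃ g : SL(2, ℤ), g = ModularGroup.S * ModularGroup.T := ⟨_, rfl⟩
  set E := V.pointFam L 0 rho (by rw [jfun_rho, map_zero]) g (hg ▸ ST_smul_rho) 3 (by norm_num)
    order_jLocal_rho (rotUnit_rho hg)
  have hy : V.jF L - algebraMap L (V.fld L) 0 = levelJ (M * ℓ) L := by
    rw [map_zero, sub_zero]; exact Subtype.ext (V.coe_jF L)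
  obtain ⟨i, hi⟩ := E.pl_surjective v (by rw [hy]; exact hpos)
  subst hi
  have hy' : (E.pl i).ord (V.jF L - algebraMap L (V.fld L) 0) = (E.pl i).ord (levelJ (M * ℓ) L) :=
    congrArg (E.pl i).ord hy
  have hsc : E.scale i * (E.pl i).ord (levelJ (M * ℓ) L) = (3 : ℕ) :=
    (congrArg (E.scale i * ·) hy').symm.trans (E.scale_mul_ord_y i)
  have hdvd : (E.pl i).ord (levelJ (M * ℓ) L) ∣ ((3 : ℕ) : ℤ) := ⟨E.scale i, by
    rw [mul_comm]; exact hsc.symm⟩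
  have hone : (E.pl i).ord (levelJ (M * ℓ) L) = 1 := by
    obtain ⟨n, hn⟩ : ∃ n : ℕ, (E.pl i).ord (levelJ (M * ℓ) L) = n :=
      ⟨_, (Int.toNat_of_nonneg hpos.le).symm⟩
    rw [hn, Int.natCast_dvd_natCast] at hdvd
    rcases Nat.prime_three.eq_one_or_self_of_dvd n hdvd with h | h
    · rw [hn, h, Nat.cast_one]
    · exact absurd ⟨1, hn.trans (by rw [h]; norm_num)⟩ h3
  have hdeck : E.deck i = i := by
    obtain ⟨r, hr, hri⟩ := E.pl_eq_iff_exists.1 (E.pl_deck_iterate 1 i).symm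
    have : E.ram i = 1 := by
      rw [EmbFamily.ram, hy', hone]
      rfl
    obtain rfl : r = 0 := by omega
    simpa using hri.symm
  have hmem : (Quotient.out i)⁻¹ * g * Quotient.out i ∈ Gamma0 (M * ℓ) := by
    have h1 : g⁻¹ • i = i := hdeck
    rw [← QuotientGroup.out_eq' i, MulAction.Quotient.smul_mk, QuotientGroup.eq, smul_eq_mul,
      mul_inv_rev, inv_inv] at h1
    exact h1
  have h4 : (E.σ i (heckeBetaBar L M ℓ f)).order = (E.σ i (heckeAlphaBar L M ℓ f)).order :=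
    order_emb_beta_eq_alpha M ℓ L hℓ2 hg (Quotient.out i) hmem f
  exact mul_left_cancel₀ (E.scale_pos i).ne'
    ((E.order_σ i _).symm.trans (h4.trans (E.order_σ i _)))

end FA.Level
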