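import Fermat.Agent.Level.Interp
import Fermat.Agent.Curve.Riemann

/-!
# The function field of a level: generation, degree over `L(j)`, function field structure
-/

set_option autoImplicit false
set_option linter.style.haveILetI false
set_option linter.unusedSectionVars false
set_option synthInstance.maxHeartbeats 200000
set_option maxHeartbeats 1600000

noncomputable section

namespace FA.Level

open UpperHalfPlane hiding I
open Complex Filter Set CongruenceSubgroup ModularCurve FA.ModField IntermediateField
open scoped MatrixGroups Topology Manifold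

variable (V : Lvl) (L : Type) [Field L] [Algebra ℚ L] [Algebra L ℂ]

theorem Lvl.coe_jF : ((V.jF L : V.fld L) : LaurentSeries L) = jqModC L := V.coe_jA L

theorem Lvl.coe_aeval (x : V.fld L) (p : Polynomial L) :
    ((Polynomial.aeval x p : V.fld L) : LaurentSeries L) =
      Polynomial.aeval (x : LaurentSeries L) p :=
  (Polynomial.aeval_algHom_apply (V.fld L).val x p).symm

theorem Lvl.jF_transcendental : Transcendental L (V.jF L) := by
  rw [transcendental_iff]
  intro p hp
  have h := congrArg (fun x : V.fld L => (x : LaurentSeries L)) hp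
  simp only [V.coe_aeval, V.coe_jF, ZeroMemClass.coe_zero] at h
  exact (transcendental_iff.1 (jqModC_transcendental L)) p h

/-- The field is generated over `L(j)` by the separating element. -/
theorem Lvl.adjoin_sep_eq_top : (V.jFld L)⟮V.sepF L⟯ = ⊤ := by
  set E := (V.jFld L)⟮V.sepF L⟯
  have hj : V.jF L ∈ E := by
    have := E.algebraMap_mem ⟨V.jF L, mem_adjoin_simple_self L _⟩
    exact this
  have hs : V.sepF L ∈ E := mem_adjoin_simple_self _ _
  have hc : ∀ c : L, algebraMap L (V.fld L) c ∈ E := fun c => by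
    have := E.algebraMap_mem (algebraMap L (V.jFld L) c)
    exact this
  have hpair : ∀ a ∈ V.pairAlg L, ∃ e ∈ E, ((e : V.fld L) : LaurentSeries L) = a := by
    intro a ha
    induction ha using Algebra.adjoin_induction with
    | mem x hx =>
      obtain ⟨y, hy, rfl⟩ := hx
      rcases hy with rfl | rfl
      · exact ⟨_, hj, rfl⟩
      · exact ⟨_, hs, rfl⟩
    | algebraMap c => exact ⟨_, hc c, rfl⟩
    | add x y _ _ hx hy =>
      obtain ⟨e, he, rfl⟩ := hx
      obtain ⟨e', he', rfl⟩ := hy
      exact ⟨e + e', add_mem he he', rfl⟩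
    | mul x y _ _ hx hy =>
      obtain ⟨e, he, rfl⟩ := hx
      obtain ⟨e', he', rfl⟩ := hy
      exact ⟨e * e', mul_mem he he', rfl⟩
  have halg : ∀ a : V.alg L, V.toFld L a ∈ E := by
    intro a
    obtain ⟨p, hp, q, hq, hq0, hpq⟩ := V.exists_pair_quotient (V.funHom_mem L a)
      (a : LaurentSeries L) (V.funHom_exp L a)
    obtain ⟨ep, hep, rfl⟩ := hpair p hp
    obtain ⟨eq, heq, rfl⟩ := hpair q hq
    have hne : eq ≠ 0 := fun h => hq0 (by rw [h, ZeroMemClass.coe_zero])
    have : V.toFld L a = ep / eq := by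
      rw [eq_div_iff hne]
      exact Subtype.ext hpq
    rw [this]
    exact div_mem hep heq
  refine eq_top_iff.2 fun f _ => ?_
  obtain ⟨a, b, hb, hab⟩ := V.exists_fraction L f
  have hne : V.toFld L b ≠ 0 := (map_ne_zero_iff _ (V.toFld_injective L)).2 hb
  rw [(eq_div_iff hne).2 hab]
  exact div_mem (halg a) (halg b)

/-- A monic relation of degree the index for an element of `alg`. -/
theorem Lvl.exists_monic_relation (a : V.alg L) :
    ∃ R : ℕ → Polynomial L, R (Fintype.card V.Cos) = 1 ∧
      ∑ k ∈ Finset.range (Fintype.card V.Cos + 1),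
        Polynomial.aeval (jqModC L) (R k) * (a : LaurentSeries L) ^ k = 0 := by
  classical
  set n := Fintype.card V.Cos
  set f := V.funHom L a
  have hf := V.funHom_mem L a
  let poly : ℍ → Polynomial ℂ := fun z => ∏ i, (Polynomial.X - Polynomial.C (V.cosVal f i z))
  have hcoef : ∀ k, (fun z => (poly z).coeff k) ∈ expFuns V.M := by
    intro k
    let Q : Polynomial (expFuns V.M) := ∏ i,
      (Polynomial.X - Polynomial.C (⟨V.cosVal f i, V.cosVal_mem_expFuns hf i⟩ : expFuns V.M))
    have : (fun z => (poly z).coeff k) = ((Q.coeff k : expFuns V.M) : ℍ → ℂ) := by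
      funext z
      have h1 : Q.map ((Pi.evalRingHom (fun _ : ℍ => ℂ) z).comp (expFuns V.M).subtype) = poly z := by
        simp [Q, poly, Polynomial.map_prod]
      rw [← h1, Polynomial.coeff_map]
      rfl
    rw [this]
    exact (Q.coeff k).2
  have hinv : ∀ (g : SL(2, ℤ)) z, poly (g • z) = poly z := by
    intro g z
    show ∏ i, (Polynomial.X - Polynomial.C (V.cosVal f i (g • z))) =
      ∏ i, (Polynomial.X - Polynomial.C (V.cosVal f i z))
    rw [Finset.prod_congr rfl fun i _ => by rw [V.cosVal_smul hf i g z]]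
    exact Equiv.prod_comp (MulAction.toPerm g⁻¹ : Equiv.Perm V.Cos)
      (fun i => Polynomial.X - Polynomial.C (V.cosVal f i z))
  have hP : ∀ k, ∃ P : Polynomial ℂ, ∀ z, (poly z).coeff k = P.eval (jfun z) := by
    intro k
    obtain ⟨hm, K, hK⟩ := hcoef k
    obtain ⟨K', hK'⟩ := hasExp_descend (f := fun z => (poly z).coeff k)
      (fun z => by rw [hinv]) hK
    obtain ⟨P, hP⟩ := exists_polynomial_of_invariant (f := fun z => (poly z).coeff k)
      (fun g z => by rw [hinv]) hm hK'
    exact ⟨P, congrFun hP⟩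
  choose P hP using hP
  have hdeg : ∀ z, (poly z).natDegree = n := fun z => by
    show (∏ i, (Polynomial.X - Polynomial.C (V.cosVal f i z))).natDegree = _
    rw [Polynomial.natDegree_finsetProd_X_sub_C_eq_card, Finset.card_univ]
  have hPn : P n = 1 := by
    apply Polynomial.funext
    intro x
    obtain ⟨τ, rfl⟩ := exists_jfun_eq x
    rw [← hP, Polynomial.eval_one, ← hdeg τ]
    exact (Polynomial.monic_prod_X_sub_C _ _).coeff_natDegree
  have hrel : ∀ z, ∑ k ∈ Finset.range (n + 1), (P k).eval (jfun z) * f z ^ k = 0 := fun z => by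
    simp only [← hP]
    rw [← hdeg z, ← Polynomial.eval_eq_sum_range]
    simp only [poly, Polynomial.eval_prod, Polynomial.eval_sub, Polynomial.eval_X,
      Polynomial.eval_C]
    refine Finset.prod_eq_zero (Finset.mem_univ (QuotientGroup.mk 1 : V.Cos)) ?_
    rw [V.cosVal_mk hf, inv_one, one_smul, sub_self]
  set D := (Finset.range (n + 1)).sup fun k => (P k).natDegree
  let v : Fin (n + 1) × Fin (D + 1) → LaurentSeries L := fun p =>
    jqModC L ^ (p.2 : ℕ) * (a : LaurentSeries L) ^ (p.1 : ℕ)
  let c : Fin (n + 1) × Fin (D + 1) → ℂ := fun p => (P p.1).coeff p.2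
  have hser : HasExp (qp 1) (∑ p, (fun z => c p * (jfun z ^ (p.2 : ℕ) * f z ^ (p.1 : ℕ))))
      (∑ p, HahnSeries.C (c p) * coeffMap (algebraMap L ℂ) (v p)) := by
    refine hasExp_sum _ fun p _ => ?_
    rw [map_mul, map_pow, map_pow, coeffMap_jqModC]
    exact (hasExp_C (c p)).mul (qp_ne_zero 1)
      ((hasExp_jfun.pow (qp_ne_zero 1) _).mul (qp_ne_zero 1)
        ((V.funHom_exp L a).pow (qp_ne_zero 1) _))
  have hzero : (∑ p, (fun z => c p * (jfun z ^ (p.2 : ℕ) * f z ^ (p.1 : ℕ)))) = 0 := by
    funext z
    rw [Pi.zero_apply, ← hrel z, Finset.sum_apply, Fintype.sum_prod_type,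
      ← Fin.sum_univ_eq_sum_range]
    refine Finset.sum_congr rfl fun k _ => ?_
    rw [Polynomial.eval_eq_sum_range' (n := D + 1) (by
      have := Finset.le_sup (f := fun k => (P k).natDegree) (Finset.mem_range.2 k.2)
      omega), ← Fin.sum_univ_eq_sum_range, Finset.sum_mul]
    exact Finset.sum_congr rfl fun i _ => by simp only [c]; ring
  rw [hzero] at hser
  obtain ⟨b, hb0, hbz, hb⟩ := descent v c (hasExp_eq_zero (covers_qp 1) hser)
    (⟨n, Nat.lt_succ_self n⟩, 0) (by simp [c, hPn]) one_ne_zero
  let R : ℕ → Polynomial L := fun k =>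
    if h : k < n + 1 then ∑ i : Fin (D + 1), Polynomial.C (b (⟨k, h⟩, i)) * Polynomial.X ^ (i : ℕ)
    else 0
  refine ⟨R, ?_, ?_⟩
  · simp only [R, dif_pos (Nat.lt_succ_self n)]
    rw [Finset.sum_eq_single 0]
    · rw [hb0]; simp
    · intro i _ hi
      rw [hbz _ (by simp [c, hPn, Polynomial.coeff_one, Fin.val_eq_zero_iff, hi])]
      simp
    · simp
  · rw [← hb, Fintype.sum_prod_type, ← Fin.sum_univ_eq_sum_range]
    refine Finset.sum_congr rfl fun k _ => ?_
    simp only [R, dif_pos k.2, map_sum, Finset.sum_mul, map_mul, map_pow, Polynomial.aeval_C,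
      Polynomial.aeval_X, Fin.eta, v, algebraMap_laurentSeries_eq_single, ← HahnSeries.C_apply]
    exact Finset.sum_congr rfl fun i _ => by ring

theorem Lvl.minpoly_sep :
    IsIntegral (V.jFld L) (V.sepF L) ∧
      (minpoly (V.jFld L) (V.sepF L)).natDegree ≤ Fintype.card V.Cos := by
  classical
  set n := Fintype.card V.Cos
  obtain ⟨R, hRn, hR⟩ := V.exists_monic_relation L (V.sepA L)
  set g : Polynomial L →+* V.jFld L :=
    (Polynomial.aeval (R := L) (IntermediateField.AdjoinSimple.gen L (V.jF L))).toRingHom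
  have hg : ∀ p : Polynomial L,
      algebraMap (V.jFld L) (V.fld L) (g p) = Polynomial.aeval (V.jF L) p := fun p => by
    show (algebraMap (V.jFld L) (V.fld L)) (Polynomial.aeval _ p) = _
    rw [← Polynomial.aeval_algebraMap_apply]
    rfl
  let Q : Polynomial (V.jFld L) :=
    ∑ k ∈ Finset.range (n + 1), Polynomial.C (g (R k)) * Polynomial.X ^ k
  have hQn : Q.coeff n = 1 := by
    simp only [Q, Polynomial.finsetSum_coeff, Polynomial.coeff_C_mul_X_pow]
    rw [Finset.sum_eq_single n]
    · rw [if_pos rfl, hRn, map_one]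
    · intro k _ hk; rw [if_neg (Ne.symm hk)]
    · simp
  have hQd : Q.natDegree ≤ n := Polynomial.natDegree_sum_le_of_forall_le _ _ fun k hk =>
    (Polynomial.natDegree_C_mul_X_pow_le _ _).trans (Nat.lt_succ_iff.1 (Finset.mem_range.1 hk))
  have hQm : Q.Monic := Polynomial.monic_of_natDegree_le_of_coeff_eq_one n hQd hQn
  have hev : Polynomial.aeval (V.sepF L) Q = 0 := by
    apply Subtype.ext
    simp only [Q, map_sum, map_mul, map_pow, Polynomial.aeval_C, Polynomial.aeval_X, hg]
    refine Eq.trans ?_ (hR.trans (ZeroMemClass.coe_zero _).symm)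
    rw [AddSubmonoidClass.coe_finsetSum]
    refine Finset.sum_congr rfl fun k _ => ?_
    rw [MulMemClass.coe_mul, SubmonoidClass.coe_pow, V.coe_aeval, V.coe_jF]
    rfl
  exact ⟨⟨Q, hQm, hev⟩,
    (Polynomial.natDegree_le_of_dvd (minpoly.dvd _ _ hev) hQm.ne_zero).trans hQd⟩

theorem Lvl.finite_jFld : FiniteDimensional (V.jFld L) (V.fld L) := by
  haveI := IntermediateField.adjoin.finiteDimensional (V.minpoly_sep L).1
  rw [V.adjoin_sep_eq_top L] at this
  exact IntermediateField.topEquiv.toLinearEquiv.finiteDimensional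

/-- The degree over `L(j)` is the index. -/
theorem Lvl.finrank_jFld : Module.finrank (V.jFld L) (V.fld L) = Fintype.card V.Cos := by
  classical
  haveI := V.finite_jFld L
  refine le_antisymm ?_ ?_
  · rw [← IntermediateField.finrank_top', ← V.adjoin_sep_eq_top L,
      IntermediateField.adjoin.finrank (V.minpoly_sep L).1]
    exact (V.minpoly_sep L).2
  · haveI : CharZero L := charZero_of_injective_algebraMap (algebraMap ℚ L).injective
    haveI : CharZero (V.jFld L) :=
      charZero_of_injective_algebraMap (algebraMap L (V.jFld L)).injective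
    set P := cuspPar V
    have hK := exists_cusp_series V
    set i₀ : V.Cos := QuotientGroup.mk 1
    letI : Algebra (V.jFld L) (AlgebraicClosure (LaurentSeries ℂ)) :=
      ((algebraMap (LaurentSeries ℂ) _).comp
        ((embCos (L := L) P i₀).toRingHom.comp (algebraMap (V.jFld L) _))).toAlgebra
    let τ : V.Cos → V.fld L →ₐ[V.jFld L] AlgebraicClosure (LaurentSeries ℂ) := fun i =>
      { (algebraMap (LaurentSeries ℂ) _).comp (embCos P i).toRingHom with
        commutes' := fun x => by
          show algebraMap (LaurentSeries ℂ) _ (embCos P i (x : V.fld L)) = _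
          rw [embCos_agree P hK i i₀]
          rfl }
    have hτ : Function.Injective τ := fun i j h => embCos_injective P (AlgHom.ext fun z =>
      (algebraMap (LaurentSeries ℂ) _).injective (AlgHom.congr_fun h z))
    rw [← AlgHom.card (V.jFld L) _ (AlgebraicClosure (LaurentSeries ℂ))]
    exact Fintype.card_le_of_injective τ hτ

theorem Lvl.isFunctionField : FA.Curve.IsFunctionField L (V.fld L) :=
  ⟨V.jF L, V.jF_transcendental L, V.finite_jFld L⟩

theorem Lvl.isCurve : IsCurve L (V.fld L) := (V.isFunctionField L).isCurve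

theorem Lvl.hasPrincipalDivisors [IsAlgClosed L] :
    AlgebraicCurve.HasPrincipalDivisors L (V.fld L) :=
  FA.Curve.hasPrincipalDivisors (V.isFunctionField L)

end FA.Level
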