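import Fermat.Agent.Level.Theta

/-!
# Recognising `theta` and extensionality for maps out of the function field
-/

set_option autoImplicit false
set_option linter.style.haveILetI false
set_option linter.unusedSectionVars false
set_option synthInstance.maxHeartbeats 200000
set_option maxHeartbeats 1600000

noncomputable section

namespace FA.Level

open ModularCurve FA.ModField
open scoped UpperHalfPlane

variable {V : Lvl} {L : Type} [Field L] [Algebra ℚ L] [Algebra L ℂ]

/-- The image of an element whose series expands a modular function. -/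
theorem theta_eq_of_series {f : V.fld L} {R : holSub} (hR : (R : ℍ → ℂ) ∈ V.mf)
    (h : HasExp (qp 1) (R : ℍ → ℂ) (coeffMap (algebraMap L ℂ) (f : LaurentSeries L))) :
    theta f = toMer R := by
  obtain ⟨a, b, hb, hab⟩ := V.exists_fraction L f
  have hser : (f : LaurentSeries L) * (b : LaurentSeries L) = a := congrArg Subtype.val hab
  have hfun : (R : ℍ → ℂ) * V.funHom L b = V.funHom L a := by
    refine (h.mul (qp_ne_zero 1) (V.funHom_exp L b)).fun_unique ?_
    rw [← map_mul, hser]
    exact V.funHom_exp L a
  refine mul_right_cancel₀ (b := toMer (genHol b)) (fun h0 => hb (genHol_injective (by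
    rw [map_zero]; exact toMer_injective (h0.trans (map_zero _).symm)))) ?_
  rw [← theta_toFld, ← map_mul, hab, theta_toFld, theta_toFld, ← map_mul]
  exact congrArg toMer (Subtype.ext hfun.symm)

/-- Ring maps out of the field are determined on constants and generators. -/
theorem fld_ringHom_ext {R : Type*} [Field R] {σ τ : V.fld L →+* R}
    (hc : ∀ c : L, σ (algebraMap L (V.fld L) c) = τ (algebraMap L (V.fld L) c))
    (hg : ∀ (x : V.fld L) (a : LaurentSeries ℚ), a ∈ V.gen →
      (x : LaurentSeries L) = coeffEmb L a → σ x = τ x) : σ = τ := by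
  suffices key : ∀ a : V.alg L, σ (V.toFld L a) = τ (V.toFld L a) by
    refine RingHom.ext fun f => ?_
    obtain ⟨a, b, hb, hab⟩ := V.exists_fraction L f
    have h1 := congrArg σ hab
    have h2 := congrArg τ hab
    rw [map_mul, key, key] at h1
    rw [map_mul] at h2
    refine mul_right_cancel₀ ?_ (h1.trans h2.symm)
    exact (map_ne_zero τ).2 ((map_ne_zero_iff _ (V.toFld_injective L)).2 hb)
  rintro ⟨a, ha⟩
  induction ha using Algebra.adjoin_induction with
  | mem x hx =>
    obtain ⟨y, hy, rfl⟩ := hx
    exact hg _ y hy rfl
  | algebraMap c => exact hc c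
  | add x y hx hy hx' hy' =>
    have := congrArg₂ (· + ·) hx' hy'
    rwa [← map_add, ← map_add, ← map_add, ← map_add] at this
  | mul x y hx hy hx' hy' =>
    have := congrArg₂ (· * ·) hx' hy'
    rwa [← map_mul, ← map_mul, ← map_mul, ← map_mul] at this

end FA.Level
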