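import Mathlib
import Fermat.Agent.ModField.Degree
import Fermat.Prelude.Def_ModularCurve_LaurentCoeff

/-!
# Levels and their function fields

A level is a subgroup `Γ ⊇ Γ(M)` of `SL₂(ℤ)` containing `T` and `-1`, together with a field of
rational series generated by expansions of `Γ`-invariant functions, containing `j` and a function
which separates the cosets of `Γ`.  Over a field `L → ℂ` the function field is the base change of
the rational one.
-/

set_option autoImplicit false
set_option linter.style.haveILetI false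
set_option linter.unusedSectionVars false

noncomputable section

namespace FA.Level

open UpperHalfPlane hiding I
open Complex Filter Set CongruenceSubgroup ModularCurve FA.ModField
open scoped MatrixGroups Topology Manifold

/-- Holomorphic `Γ`-invariant functions with expansions at all cusps. -/
def modFunsG (Γ : Subgroup SL(2, ℤ)) (M : ℕ) : Subalgebra ℂ (ℍ → ℂ) where
  carrier := {f | MDiff f ∧ (∀ γ ∈ Γ, ∀ z, f (γ • z) = f z) ∧
    (∃ L, HasExp (qp 1) f L) ∧
    ∀ γ : SL(2, ℤ), ∃ L, HasExp (qp M) (fun z => f (γ • z)) L}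
  mul_mem' := by
    rintro f g ⟨hf1, hf2, ⟨L, hL⟩, hf4⟩ ⟨hg1, hg2, ⟨K, hK⟩, hg4⟩
    refine ⟨hf1.mul hg1, fun γ hγ z => by simp only [Pi.mul_apply]; rw [hf2 γ hγ z, hg2 γ hγ z],
      ⟨_, hL.mul (qp_ne_zero 1) hK⟩, fun γ => ?_⟩
    obtain ⟨L', hL'⟩ := hf4 γ
    obtain ⟨K', hK'⟩ := hg4 γ
    exact ⟨_, hL'.mul (qp_ne_zero M) hK'⟩
  add_mem' := by
    rintro f g ⟨hf1, hf2, ⟨L, hL⟩, hf4⟩ ⟨hg1, hg2, ⟨K, hK⟩, hg4⟩
    refine ⟨hf1.add hg1, fun γ hγ z => by simp only [Pi.add_apply]; rw [hf2 γ hγ z, hg2 γ hγ z],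
      ⟨_, hL.add hK⟩, fun γ => ?_⟩
    obtain ⟨L', hL'⟩ := hf4 γ
    obtain ⟨K', hK'⟩ := hg4 γ
    exact ⟨_, hL'.add hK'⟩
  algebraMap_mem' c := ⟨mdifferentiable_const, fun _ _ _ => rfl, ⟨_, hasExp_C c⟩,
    fun _ => ⟨_, hasExp_C c⟩⟩

end FA.Level

/-- A level with a rational structure. -/
structure FA.Level.Lvl where
  /-- the width -/
  M : ℕ
  M_ne : M ≠ 0
  /-- the group -/
  grp : Subgroup (Matrix.SpecialLinearGroup (Fin 2) ℤ)
  gamma_le : CongruenceSubgroup.Gamma M ≤ grp
  neg_one_mem : -1 ∈ grp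
  T_mem : ModularGroup.T ∈ grp
  /-- the rational function field -/
  F₀ : IntermediateField ℚ (LaurentSeries ℚ)
  /-- generators -/
  gen : Set (LaurentSeries ℚ)
  F₀_eq : F₀ = IntermediateField.adjoin ℚ gen
  gen_mem : ∀ a ∈ gen, ∃ f ∈ FA.Level.modFunsG grp M,
    FA.ModField.HasExp (FA.ModField.qp 1) f (ModularCurve.coeffMap (algebraMap ℚ ℂ) a)
  j_mem : ModularCurve.jqModC ℚ ∈ gen
  /-- a separating element -/
  sepSer : LaurentSeries ℚ
  sep_mem : sepSer ∈ gen
  /-- the separating function -/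
  sepFun : UpperHalfPlane → ℂ
  sep_exp : FA.ModField.HasExp (FA.ModField.qp 1) sepFun
    (ModularCurve.coeffMap (algebraMap ℚ ℂ) sepSer)
  sep_spec : ∀ g : Matrix.SpecialLinearGroup (Fin 2) ℤ,
    (∀ z : UpperHalfPlane, sepFun (g • z) = sepFun z) → g ∈ grp

namespace FA.Level

open UpperHalfPlane hiding I
open Complex Filter Set CongruenceSubgroup ModularCurve FA.ModField
open scoped MatrixGroups Topology Manifold

namespace Lvl

variable (V : Lvl)

instance neZero : NeZero V.M := ⟨V.M_ne⟩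

/-- The cosets. -/
abbrev Cos : Type := SL(2, ℤ) ⧸ V.grp

theorem finiteIndex : V.grp.FiniteIndex := Subgroup.finiteIndex_of_le V.gamma_le

instance cosFinite : Finite V.Cos := by
  haveI := V.finiteIndex
  exact Subgroup.finite_quotient_of_finiteIndex

instance cosFintype : Fintype V.Cos := Fintype.ofFinite _

/-- The modular functions of the level. -/
abbrev mf : Subalgebra ℂ (ℍ → ℂ) := modFunsG V.grp V.M

theorem conj_T_pow_mem (δ : SL(2, ℤ)) : δ * ModularGroup.T ^ (V.M : ℤ) * δ⁻¹ ∈ V.grp := by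
  haveI : (CongruenceSubgroup.Gamma V.M).Normal := CongruenceSubgroup.Gamma_normal V.M
  refine V.gamma_le (Subgroup.Normal.conj_mem inferInstance _ ?_ δ)
  rw [CongruenceSubgroup.Gamma_mem, ModularGroup.coe_T_zpow]
  simp

theorem sepFun_mem : V.sepFun ∈ V.mf := by
  obtain ⟨f, hf, hexp⟩ := V.gen_mem _ V.sep_mem
  rwa [← hexp.fun_unique V.sep_exp]

theorem jfun_mem : jfun ∈ V.mf := by
  obtain ⟨f, hf, hexp⟩ := V.gen_mem _ V.j_mem
  rw [coeffMap_jqModC] at hexp
  rwa [← hexp.fun_unique hasExp_jfun]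

variable (L : Type) [Field L] [Algebra ℚ L]

/-- The function field over `L`. -/
abbrev fld : IntermediateField L (LaurentSeries L) := laurentBaseChange L V.F₀

/-- The algebra generated by the generators. -/
abbrev alg : Subalgebra L (LaurentSeries L) := Algebra.adjoin L (coeffEmb L '' V.gen)

theorem fld_eq_adjoin : V.fld L = IntermediateField.adjoin L (coeffEmb L '' V.gen) := by
  apply le_antisymm
  · show IntermediateField.adjoin L (coeffEmb L '' (V.F₀ : Set (LaurentSeries ℚ))) ≤ _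
    rw [IntermediateField.adjoin_le_iff]
    rintro _ ⟨x, hx, rfl⟩
    rw [V.F₀_eq] at hx
    induction hx using IntermediateField.adjoin_induction with
    | mem y hy => exact IntermediateField.subset_adjoin L _ ⟨y, hy, rfl⟩
    | algebraMap a =>
      rw [show coeffEmb L (algebraMap ℚ (LaurentSeries ℚ) a) =
          algebraMap L (LaurentSeries L) (algebraMap ℚ L a) by
        rw [coeffEmb, algebraMap_laurentSeries_eq_single, algebraMap_laurentSeries_eq_single,
          coeffMap_single]]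
      exact IntermediateField.algebraMap_mem _ _
    | add y z _ _ hy hz => rw [map_add]; exact add_mem hy hz
    | inv y _ hy => rw [map_inv₀]; exact inv_mem hy
    | mul y z _ _ hy hz => rw [map_mul]; exact mul_mem hy hz
  · rw [IntermediateField.adjoin_le_iff]
    rintro _ ⟨y, hy, rfl⟩
    exact coeffEmb_mem_laurentBaseChange L (V.F₀_eq ▸ IntermediateField.subset_adjoin ℚ _ hy)

theorem alg_le : V.alg L ≤ (V.fld L).toSubalgebra := by
  rw [V.fld_eq_adjoin L]
  exact IntermediateField.algebra_adjoin_le_adjoin L _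

instance algAlgebra : Algebra (V.alg L) (V.fld L) :=
  (Subalgebra.inclusion (V.alg_le L)).toRingHom.toAlgebra

instance algScalarTower : IsScalarTower L (V.alg L) (V.fld L) :=
  IsScalarTower.of_algebraMap_eq fun _ => rfl

instance algFaithful : FaithfulSMul (V.alg L) (V.fld L) := by
  rw [faithfulSMul_iff_algebraMap_injective]
  exact Subalgebra.inclusion_injective _

instance algFractionRing : IsFractionRing (V.alg L) (V.fld L) :=
  IsFractionRing.of_field _ _ fun f => by
    have hf : (f : LaurentSeries L) ∈ IntermediateField.adjoin L (coeffEmb L '' V.gen) := by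
      rw [← V.fld_eq_adjoin L]; exact f.2
    obtain ⟨x, hx, y, hy, heq⟩ := IntermediateField.mem_adjoin_iff_div.mp hf
    exact ⟨⟨x, hx⟩, ⟨y, hy⟩, Subtype.ext heq⟩

/-- An element of `alg` inside the field. -/
def toFld : V.alg L →+* V.fld L := algebraMap (V.alg L) (V.fld L)

theorem coe_toFld (a : V.alg L) : ((V.toFld L a : V.fld L) : LaurentSeries L) = a := rfl

theorem toFld_injective : Function.Injective (V.toFld L) := Subalgebra.inclusion_injective _

theorem exists_fraction (f : V.fld L) :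
    ∃ a b : V.alg L, b ≠ 0 ∧ f * V.toFld L b = V.toFld L a := by
  obtain ⟨⟨a, b⟩, h⟩ := IsLocalization.surj (nonZeroDivisors (V.alg L)) (S := V.fld L) f
  exact ⟨a, b, nonZeroDivisors.ne_zero b.2, h⟩

variable [Algebra L ℂ]

theorem coeffMap_coeffEmb_complex (a : LaurentSeries ℚ) :
    coeffMap (algebraMap L ℂ) (coeffEmb L a) = coeffMap (algebraMap ℚ ℂ) a := by
  rw [coeffEmb, coeffMap_coeffMap]
  exact coeffMap_congr (Subsingleton.elim _ _) a

theorem exists_fun {a : LaurentSeries L} (ha : a ∈ V.alg L) :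
    ∃ f ∈ V.mf, HasExp (qp 1) f (coeffMap (algebraMap L ℂ) a) := by
  induction ha using Algebra.adjoin_induction with
  | mem x hx =>
    obtain ⟨y, hy, rfl⟩ := hx
    rw [coeffMap_coeffEmb_complex]
    exact V.gen_mem y hy
  | algebraMap c =>
    refine ⟨fun _ => algebraMap L ℂ c, Subalgebra.algebraMap_mem _ (algebraMap L ℂ c), ?_⟩
    rw [algebraMap_laurentSeries_eq_single, coeffMap_single, ← HahnSeries.C_apply]
    exact hasExp_C _
  | add x y _ _ hx hy =>
    obtain ⟨f, hf, hf'⟩ := hx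
    obtain ⟨g, hg, hg'⟩ := hy
    exact ⟨f + g, add_mem hf hg, by rw [map_add]; exact hf'.add hg'⟩
  | mul x y _ _ hx hy =>
    obtain ⟨f, hf, hf'⟩ := hx
    obtain ⟨g, hg, hg'⟩ := hy
    exact ⟨f * g, mul_mem hf hg, by rw [map_mul]; exact hf'.mul (qp_ne_zero 1) hg'⟩

/-- The function of an element of `alg`. -/
def fn (a : V.alg L) : ℍ → ℂ := (V.exists_fun L a.2).choose

theorem fn_mem (a : V.alg L) : V.fn L a ∈ V.mf := (V.exists_fun L a.2).choose_spec.1

theorem fn_exp (a : V.alg L) :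
    HasExp (qp 1) (V.fn L a) (coeffMap (algebraMap L ℂ) (a : LaurentSeries L)) :=
  (V.exists_fun L a.2).choose_spec.2

theorem fn_eq {a : V.alg L} {f : ℍ → ℂ}
    (h : HasExp (qp 1) f (coeffMap (algebraMap L ℂ) (a : LaurentSeries L))) : V.fn L a = f :=
  (V.fn_exp L a).fun_unique h

/-- `fn` as a ring homomorphism. -/
def funHom : V.alg L →+* (ℍ → ℂ) where
  toFun := V.fn L
  map_one' := V.fn_eq L (by rw [OneMemClass.coe_one, map_one]; exact hasExp_one)
  map_zero' := V.fn_eq L (by rw [ZeroMemClass.coe_zero, map_zero]; exact hasExp_zero)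
  map_add' a b := V.fn_eq L (by
    rw [AddMemClass.coe_add, map_add]; exact (V.fn_exp L a).add (V.fn_exp L b))
  map_mul' a b := V.fn_eq L (by
    rw [MulMemClass.coe_mul, map_mul]; exact (V.fn_exp L a).mul (qp_ne_zero 1) (V.fn_exp L b))

theorem funHom_mem (a : V.alg L) : V.funHom L a ∈ V.mf := V.fn_mem L a

theorem funHom_exp (a : V.alg L) :
    HasExp (qp 1) (V.funHom L a) (coeffMap (algebraMap L ℂ) (a : LaurentSeries L)) :=
  V.fn_exp L a

theorem funHom_injective : Function.Injective (V.funHom L) := by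
  intro a b h
  have h1 := V.funHom_exp L a
  rw [h] at h1
  have h2 := h1.unique (covers_qp 1) (V.funHom_exp L b)
  exact Subtype.ext (HahnSeries.ext (funext fun n =>
    (algebraMap L ℂ).injective (congrArg (fun s : LaurentSeries ℂ => s.coeff n) h2)))

theorem funHom_algebraMap (c : L) :
    V.funHom L (algebraMap L (V.alg L) c) = fun _ => algebraMap L ℂ c := by
  refine V.fn_eq L ?_
  show HasExp (qp 1) _ (coeffMap (algebraMap L ℂ) (algebraMap L (LaurentSeries L) c))
  rw [algebraMap_laurentSeries_eq_single, coeffMap_single, ← HahnSeries.C_apply]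
  exact hasExp_C _

/-- `j` in `alg`. -/
def jA : V.alg L := ⟨coeffEmb L (jqModC ℚ), Algebra.subset_adjoin ⟨_, V.j_mem, rfl⟩⟩

/-- The separating element in `alg`. -/
def sepA : V.alg L := ⟨coeffEmb L V.sepSer, Algebra.subset_adjoin ⟨_, V.sep_mem, rfl⟩⟩

theorem coe_jA : ((V.jA L : V.alg L) : LaurentSeries L) = jqModC L := by
  show coeffEmb L (jqModC ℚ) = _
  rw [coeffEmb, coeffMap_jqModC]

theorem funHom_jA : V.funHom L (V.jA L) = jfun :=
  V.fn_eq L (by rw [coe_jA, coeffMap_jqModC]; exact hasExp_jfun)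

theorem funHom_sepA : V.funHom L (V.sepA L) = V.sepFun :=
  V.fn_eq L (by
    show HasExp _ _ (coeffMap _ (coeffEmb L V.sepSer))
    rw [coeffMap_coeffEmb_complex]; exact V.sep_exp)

/-! ### Values on cosets -/

/-- The value of a function on a coset. -/
def cosVal (f : ℍ → ℂ) (i : V.Cos) (z : ℍ) : ℂ := f ((Quotient.out i)⁻¹ • z)

theorem cosVal_mk {f : ℍ → ℂ} (hf : f ∈ V.mf) (g : SL(2, ℤ)) (z : ℍ) :
    V.cosVal f (QuotientGroup.mk g) z = f (g⁻¹ • z) := by
  obtain ⟨h, hh⟩ := QuotientGroup.mk_out_eq_mul V.grp g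
  rw [cosVal, show Quotient.out (QuotientGroup.mk g : V.Cos) = g * h from hh, mul_inv_rev,
    mul_smul, hf.2.1 _ (inv_mem h.2)]

theorem cosVal_smul {f : ℍ → ℂ} (hf : f ∈ V.mf) (i : V.Cos) (g : SL(2, ℤ)) (z : ℍ) :
    V.cosVal f i (g • z) = V.cosVal f (g⁻¹ • i) z := by
  induction i using QuotientGroup.induction_on with
  | H g' =>
  rw [MulAction.Quotient.smul_mk, smul_eq_mul, V.cosVal_mk hf, V.cosVal_mk hf, mul_inv_rev, inv_inv,
    mul_smul]

theorem cosVal_mem_expFuns {f : ℍ → ℂ} (hf : f ∈ V.mf) (i : V.Cos) :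
    V.cosVal f i ∈ expFuns V.M :=
  ⟨mdiff_comp_smul hf.1 _, hf.2.2.2 _⟩

theorem sep_cosVal_ne {i : V.Cos} (hi : i ≠ QuotientGroup.mk 1) :
    (fun z => V.sepFun z - V.cosVal V.sepFun i z) ≠ 0 := by
  intro h
  induction i using QuotientGroup.induction_on with
  | H g =>
  refine hi ?_
  rw [QuotientGroup.eq, mul_one]
  refine V.sep_spec _ fun z => ?_
  have := congrFun h z
  rw [Pi.zero_apply, V.cosVal_mk V.sepFun_mem, sub_eq_zero] at this
  exact this.symm

end Lvl

end FA.Level
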