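import Fermat.Agent.Level.Basic

/-!
# The embeddings of the function field of a level into Laurent series, one for each coset
-/

set_option autoImplicit false
set_option linter.style.haveILetI false
set_option linter.unusedSectionVars false
set_option synthInstance.maxHeartbeats 200000
set_option maxHeartbeats 1600000

noncomputable section

namespace FA.Level

open UpperHalfPlane hiding I
open Complex Filter Set CongruenceSubgroup ModularCurve FA.ModField IntermediateField
open scoped MatrixGroups Topology Manifold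

/-- A parametrisation of a punctured neighbourhood of a point or cusp. -/
structure LPar (V : Lvl) where
  /-- the parameter space -/
  X : Type
  /-- the parameter -/
  T : X → ℂ
  hT : ∀ x, T x ≠ 0
  cov : CoversPunctured T
  /-- the map to the upper half plane -/
  g₀ : X → ℍ
  hexp : ∀ f ∈ V.mf, ∀ γ : SL(2, ℤ), ∃ K, HasExp T (fun x => f (γ • g₀ x)) K
  hinj : ∀ h : ℍ → ℂ, MDiff h → (∀ x, h (g₀ x) = 0) → h = 0

/-- The parameter at infinity. -/
def cuspPar (V : Lvl) : LPar V where
  X := ℍ
  T := qp V.M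
  hT := qp_ne_zero V.M
  cov := covers_qp V.M
  g₀ := id
  hexp _ hf γ := hf.2.2.2 γ
  hinj _ _ h0 := funext h0

/-- The Cayley parameter at `τ`. -/
def pointPar (V : Lvl) (τ : ℍ) : LPar V where
  X := Disc
  T := Subtype.val
  hT := disc_ne_zero
  cov := covers_disc
  g₀ := cayH τ
  hexp _ hf γ := ⟨_, hasExp_cay (mdiff_comp_smul hf.1 γ) τ⟩
  hinj _ hm h0 := eq_zero_of_tay_eq_zero hm τ (funext h0)

variable {V : Lvl} {L : Type} [Field L] [Algebra ℚ L] [Algebra L ℂ]

/-- The series of `f ∘ γ` in the parameter `P`. -/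
def expAt (P : LPar V) (γ : SL(2, ℤ)) (a : V.alg L) : LaurentSeries ℂ :=
  (P.hexp _ (V.funHom_mem L a) γ).choose

theorem expAt_spec (P : LPar V) (γ : SL(2, ℤ)) (a : V.alg L) :
    HasExp P.T (fun x => V.funHom L a (γ • P.g₀ x)) (expAt P γ a) :=
  (P.hexp _ (V.funHom_mem L a) γ).choose_spec

theorem expAt_eq {P : LPar V} {γ : SL(2, ℤ)} {a : V.alg L} {K : LaurentSeries ℂ}
    (h : HasExp P.T (fun x => V.funHom L a (γ • P.g₀ x)) K) : expAt P γ a = K :=
  (expAt_spec P γ a).unique P.cov h

/-- `expAt` as an algebra map. -/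
def expHom (P : LPar V) (γ : SL(2, ℤ)) : V.alg L →ₐ[L] LaurentSeries ℂ where
  toFun := expAt P γ
  map_one' := expAt_eq (hasExp_one.congr (funext fun x => by rw [map_one]; rfl))
  map_zero' := expAt_eq (hasExp_zero.congr (funext fun x => by rw [map_zero]; rfl))
  map_add' a b := expAt_eq (((expAt_spec P γ a).add (expAt_spec P γ b)).congr
    (funext fun x => by rw [map_add]; rfl))
  map_mul' a b := expAt_eq (((expAt_spec P γ a).mul P.hT (expAt_spec P γ b)).congr
    (funext fun x => by rw [map_mul]; rfl))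
  commutes' c := expAt_eq (by
    rw [FA.ModField.algebraMap_laurentC]
    exact (hasExp_C _).congr (funext fun x => by rw [V.funHom_algebraMap]))

theorem expHom_injective (P : LPar V) (γ : SL(2, ℤ)) :
    Function.Injective (expHom (L := L) P γ) := by
  rw [injective_iff_map_eq_zero]
  intro a ha
  have h := expAt_spec P γ a
  rw [show expAt P γ a = 0 from ha] at h
  have h0 := h.fun_unique hasExp_zero
  have h1 : (fun z => V.funHom L a (γ • z)) = 0 :=
    P.hinj _ (mdiff_comp_smul (V.funHom_mem L a).1 γ) (congrFun h0)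
  have h2 : V.funHom L a = 0 := funext fun z => by
    have h3 := congrFun h1 (γ⁻¹ • z)
    simpa [smul_smul] using h3
  exact V.funHom_injective L (by rw [h2, map_zero])

theorem expAt_ne_zero (P : LPar V) (γ : SL(2, ℤ)) {a : V.alg L} (ha : a ≠ 0) :
    expAt P γ a ≠ 0 := fun h0 => ha (expHom_injective P γ (by
  show expAt P γ a = expHom P γ 0
  rw [map_zero]; exact h0))

/-- The embedding of the function field attached to `γ`. -/
def emb (P : LPar V) (γ : SL(2, ℤ)) : V.fld L →ₐ[L] LaurentSeries ℂ :=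
  IsFractionRing.liftAlgHom (K := V.fld L) (expHom_injective P γ)

theorem emb_toFld (P : LPar V) (γ : SL(2, ℤ)) (a : V.alg L) :
    emb P γ (V.toFld L a) = expAt P γ a :=
  IsFractionRing.lift_algebraMap (expHom_injective P γ) a

theorem emb_ext {P : LPar V} {γ : SL(2, ℤ)} {σ : V.fld L →+* LaurentSeries ℂ}
    (h : ∀ a : V.alg L, σ (V.toFld L a) = expAt P γ a) (f : V.fld L) : σ f = emb P γ f := by
  obtain ⟨a, b, hb, hab⟩ := V.exists_fraction L f
  have h1 := congrArg σ hab
  have h2 := congrArg (emb P γ) hab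
  rw [map_mul, h, h] at h1
  rw [map_mul, emb_toFld, emb_toFld] at h2
  exact mul_right_cancel₀ (expAt_ne_zero P γ hb) (h1.trans h2.symm)

variable (V L) in
/-- The function `j`. -/
def Lvl.jF : V.fld L := V.toFld L (V.jA L)

variable (V L) in
/-- The separating element of the field. -/
def Lvl.sepF : V.fld L := V.toFld L (V.sepA L)

variable (V L) in
/-- The subfield `L(j)`. -/
abbrev Lvl.jFld : IntermediateField L (V.fld L) := L⟮V.jF L⟯

theorem emb_jF (P : LPar V) (γ : SL(2, ℤ)) {K : LaurentSeries ℂ}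
    (h : HasExp P.T (fun x => jfun (P.g₀ x)) K) : emb P γ (V.jF L) = K := by
  rw [Lvl.jF, emb_toFld]
  exact expAt_eq (h.congr (funext fun x => by rw [V.funHom_jA, jfun_smul]))

theorem emb_left_grp (P : LPar V) {h : SL(2, ℤ)} (hh : h ∈ V.grp) (γ : SL(2, ℤ)) :
    emb (L := L) P (h * γ) = emb P γ := by
  refine AlgHom.ext fun f => ?_
  refine emb_ext (σ := (emb P (h * γ)).toRingHom) (fun a => ?_) f
  rw [AlgHom.toRingHom_eq_coe, AlgHom.coe_toRingHom, emb_toFld]
  exact expAt_eq ((expAt_spec P γ a).congr (funext fun x => by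
    rw [mul_smul, (V.funHom_mem L a).2.1 h hh]))

/-- The embedding attached to a coset. -/
def embCos (P : LPar V) (i : V.Cos) : V.fld L →ₐ[L] LaurentSeries ℂ :=
  emb P (Quotient.out i)⁻¹

theorem embCos_mk (P : LPar V) (g : SL(2, ℤ)) :
    embCos (L := L) P (QuotientGroup.mk g) = emb P g⁻¹ := by
  obtain ⟨h, hh⟩ := QuotientGroup.mk_out_eq_mul V.grp g
  rw [embCos, show Quotient.out (QuotientGroup.mk g : V.Cos) = g * h from hh, mul_inv_rev]
  exact emb_left_grp P (inv_mem h.2) _

/-- The embeddings are already distinct on the separating element. -/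
theorem embCos_sep_injective (P : LPar V) :
    Function.Injective fun i => embCos (L := L) P i (V.sepF L) := by
  intro i j h
  induction i using QuotientGroup.induction_on with
  | H g =>
  induction j using QuotientGroup.induction_on with
  | H g' =>
  simp only [embCos_mk, Lvl.sepF, emb_toFld] at h
  have e1 := expAt_spec P g⁻¹ (V.sepA L)
  rw [h] at e1
  have e2 := e1.fun_unique (expAt_spec P g'⁻¹ (V.sepA L))
  have hm := mdiff_comp_smul (V.funHom_mem L (V.sepA L)).1
  have h2 : (fun z => V.funHom L (V.sepA L) (g⁻¹ • z)) -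
      (fun z => V.funHom L (V.sepA L) (g'⁻¹ • z)) = 0 :=
    P.hinj _ ((hm g⁻¹).sub (hm g'⁻¹)) fun x => sub_eq_zero.2 (congrFun e2 x)
  have h3 : g'⁻¹ * g ∈ V.grp := by
    refine V.sep_spec _ fun z => ?_
    have h4 := congrFun h2 (g • z)
    simp only [Pi.sub_apply, Pi.zero_apply, sub_eq_zero, V.funHom_sepA, inv_smul_smul] at h4
    rw [mul_smul]
    exact h4.symm
  rw [QuotientGroup.eq]
  simpa [mul_inv_rev] using inv_mem h3

theorem embCos_injective (P : LPar V) : Function.Injective (embCos (L := L) P) :=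
  fun _ _ h => embCos_sep_injective P (AlgHom.congr_fun h (V.sepF L))

/-- Deck transformations. -/
theorem embCos_deck (P : LPar V) (g : SL(2, ℤ)) (rot : P.X → P.X) (ζ : ℂˣ)
    (hg : ∀ x, g • P.g₀ x = P.g₀ (rot x)) (hT : ∀ x, P.T (rot x) = ζ * P.T x)
    (i : V.Cos) (f : V.fld L) :
    embCos P (g⁻¹ • i) f = twist ζ (embCos P i f) := by
  induction i using QuotientGroup.induction_on with
  | H g' =>
  rw [MulAction.Quotient.smul_mk, smul_eq_mul, embCos_mk, embCos_mk, mul_inv_rev, inv_inv]
  refine (emb_ext (σ := (twist ζ).comp (emb P g'⁻¹).toRingHom) (fun a => ?_) f).symm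
  rw [RingHom.comp_apply, AlgHom.toRingHom_eq_coe, AlgHom.coe_toRingHom, emb_toFld]
  symm
  refine expAt_eq ?_
  have h := (expAt_spec P g'⁻¹ a).comp (U := P.T) rot 1 ζ (fun x => by rw [pow_one, hT])
  rw [qExpand_one_apply] at h
  refine h.congr (funext fun x => ?_)
  rw [mul_smul, hg]
  rfl

theorem embCos_agree (P : LPar V) {K : LaurentSeries ℂ}
    (hK : HasExp P.T (fun x => jfun (P.g₀ x)) K) (i j : V.Cos) (x : V.jFld L) :
    embCos P i (x : V.fld L) = embCos P j (x : V.fld L) := by
  have h : (embCos (L := L) P i).comp (V.jFld L).val = (embCos P j).comp (V.jFld L).val :=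
    IntermediateField.algHom_ext_of_eq_adjoin L rfl fun z hz => by
      rw [Set.mem_singleton_iff] at hz
      subst hz
      show emb P _ (V.jF L) = emb P _ (V.jF L)
      rw [emb_jF P _ hK, emb_jF P _ hK]
  exact AlgHom.congr_fun h x

theorem exists_cusp_series (V : Lvl) :
    HasExp (cuspPar V).T (fun x => jfun ((cuspPar V).g₀ x)) (qExpand ℂ V.M (jqModC ℂ)) := by
  have h := hasExp_jfun.comp (U := qp V.M) id V.M 1 (fun z => by simp [qp_pow_self])
  rwa [twist_one_apply] at h

end FA.Level
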