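import Mathlib
import Fermat.Agent.ModField.ModFuns

/-!
# Meromorphic functions on the upper half plane

The fraction field of the ring of holomorphic functions, with composition maps.
-/

set_option autoImplicit false
set_option linter.style.haveILetI false
set_option linter.unusedSectionVars false

noncomputable section

namespace FA.Level

open UpperHalfPlane hiding I
open Complex Filter Set FA.ModField
open scoped MatrixGroups Topology Manifold

/-- Holomorphic functions on the upper half plane. -/
def holSub : Subring (ℍ → ℂ) where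
  carrier := {f | MDiff f}
  mul_mem' hf hg := MDifferentiable.mul hf hg
  one_mem' := mdifferentiable_const
  add_mem' hf hg := MDifferentiable.add hf hg
  zero_mem' := mdifferentiable_const
  neg_mem' hf := MDifferentiable.neg hf

instance holSub_isDomain : IsDomain holSub := by
  haveI : Nontrivial holSub := ⟨0, 1, fun h => zero_ne_one (α := ℂ)
    (congrFun (congrArg Subtype.val h) UpperHalfPlane.I)⟩
  haveI : NoZeroDivisors holSub := ⟨fun {f g} h => by
    rcases (UpperHalfPlane.mul_eq_zero_iff f.2 g.2).1 (congrArg Subtype.val h) with h' | h'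
    · exact Or.inl (Subtype.ext h')
    · exact Or.inr (Subtype.ext h')⟩
  exact NoZeroDivisors.to_isDomain _

/-- The field of quotients of holomorphic functions. -/
abbrev Mer : Type := FractionRing holSub

/-- A holomorphic function as an element of `Mer`. -/
def toMer : holSub →+* Mer := algebraMap holSub Mer

theorem toMer_injective : Function.Injective toMer := IsFractionRing.injective holSub Mer

/-- Constants. -/
def merC : ℂ →+* Mer :=
  toMer.comp (RingHom.codRestrict (Pi.constRingHom ℍ ℂ) holSub fun _ => mdifferentiable_const)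

theorem merC_eq (c : ℂ) : merC c = toMer ⟨fun _ => c, mdifferentiable_const⟩ := rfl

theorem exists_toMer_div (x : Mer) : ∃ r s : holSub, s ≠ 0 ∧ x * toMer s = toMer r := by
  obtain ⟨⟨r, s⟩, h⟩ := IsLocalization.surj (nonZeroDivisors holSub) x
  exact ⟨r, s, nonZeroDivisors.ne_zero s.2, h⟩

/-- An element of `Mer` whose `n`-th power is one is a constant. -/
theorem exists_root_of_unity {n : ℕ} (hn : n ≠ 0) {x : Mer} (hx : x ^ n = 1) :
    ∃ ζ : ℂ, ζ ^ n = 1 ∧ x = merC ζ := by
  classical
  haveI : NeZero n := ⟨hn⟩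
  have hζ := Complex.isPrimitiveRoot_exp n hn
  obtain ⟨i, -, hi⟩ := (hζ.map_of_injective merC.injective).eq_pow_of_pow_eq_one hx
  exact ⟨_, by rw [pow_right_comm, hζ.pow_eq_one, one_pow],
    hi.symm.trans (map_pow merC _ i).symm⟩

/-- A map along which composition preserves holomorphy and is injective. -/
structure IsGoodMap (φ : ℍ → ℍ) : Prop where
  surj : Function.Surjective φ
  mdiff : ∀ f : ℍ → ℂ, MDiff f → MDiff (fun z => f (φ z))

theorem isGoodMap_smul (γ : SL(2, ℤ)) : IsGoodMap (fun z => γ • z) :=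
  ⟨MulAction.surjective γ, fun _ hf => mdiff_comp_smul hf γ⟩

theorem scaleH_surjective (d : ℕ) [NeZero d] : Function.Surjective (scaleH d) := fun z => by
  have hd : (0 : ℝ) < d := by exact_mod_cast Nat.pos_of_ne_zero (NeZero.ne d)
  refine ⟨⟨(z : ℂ) / d, by rw [Complex.div_natCast_im]; exact div_pos z.im_pos hd⟩,
    UpperHalfPlane.ext ?_⟩
  rw [coe_scaleH, mul_div_cancel₀]
  exact_mod_cast NeZero.ne d

theorem isGoodMap_scale (d : ℕ) [NeZero d] : IsGoodMap (scaleH d) := by
  refine ⟨scaleH_surjective d, fun f hf => ?_⟩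
  rw [UpperHalfPlane.mdifferentiable_iff] at hf ⊢
  have hd : (0 : ℝ) < d := by exact_mod_cast Nat.pos_of_ne_zero (NeZero.ne d)
  have hmaps : MapsTo (fun w : ℂ => (d : ℂ) * w) {z | 0 < z.im} {z | 0 < z.im} := by
    intro w hw
    show 0 < ((d : ℂ) * w).im
    simp only [Complex.mul_im, Complex.natCast_re, Complex.natCast_im, zero_mul, add_zero]
    exact mul_pos hd hw
  have hlin : DifferentiableOn ℂ (fun w : ℂ => (d : ℂ) * w) {z | 0 < z.im} := by fun_prop
  refine (hf.comp hlin hmaps).congr fun w hw => ?_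
  simp only [Function.comp_apply, ofComplex_apply_of_im_pos hw]
  rw [ofComplex_apply_of_im_pos (show 0 < ((d : ℂ) * w).im by
      simp only [Complex.mul_im, Complex.natCast_re, Complex.natCast_im, zero_mul, add_zero]
      exact mul_pos hd hw)]
  rfl

/-- Composition on holomorphic functions. -/
def holComp {φ : ℍ → ℍ} (hφ : IsGoodMap φ) : holSub →+* holSub where
  toFun f := ⟨fun z => (f : ℍ → ℂ) (φ z), hφ.mdiff _ f.2⟩
  map_one' := rfl
  map_mul' _ _ := rfl
  map_zero' := rfl
  map_add' _ _ := rfl

theorem holComp_injective {φ : ℍ → ℍ} (hφ : IsGoodMap φ) : Function.Injective (holComp hφ) :=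
  fun f g h => Subtype.ext (funext fun w => by
    obtain ⟨z, rfl⟩ := hφ.surj w
    exact congrFun (congrArg Subtype.val h) z)

/-- Composition on `Mer`. -/
def merComp {φ : ℍ → ℍ} (hφ : IsGoodMap φ) : Mer →+* Mer :=
  IsFractionRing.lift (K := Mer) (g := toMer.comp (holComp hφ))
    (toMer_injective.comp (holComp_injective hφ))

theorem merComp_toMer {φ : ℍ → ℍ} (hφ : IsGoodMap φ) (f : holSub) :
    merComp hφ (toMer f) = toMer (holComp hφ f) :=
  IsFractionRing.lift_algebraMap _ _

theorem merComp_merC {φ : ℍ → ℍ} (hφ : IsGoodMap φ) (c : ℂ) : merComp hφ (merC c) = merC c := by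
  rw [merC_eq, merComp_toMer]
  rfl

theorem ringHom_mer_ext {R : Type*} [CommRing R] {g g' : Mer →+* R}
    (h : ∀ f, g (toMer f) = g' (toMer f)) : g = g' :=
  IsLocalization.ringHom_ext (nonZeroDivisors holSub) (RingHom.ext h)

theorem merComp_congr {φ ψ : ℍ → ℍ} (hφ : IsGoodMap φ) (hψ : IsGoodMap ψ) (h : φ = ψ) :
    merComp hφ = merComp hψ := by
  subst h; rfl

theorem merComp_merComp {φ ψ : ℍ → ℍ} (hφ : IsGoodMap φ) (hψ : IsGoodMap ψ)
    (hψφ : IsGoodMap (fun z => ψ (φ z))) (x : Mer) :
    merComp hφ (merComp hψ x) = merComp hψφ x := by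
  have : (merComp hφ).comp (merComp hψ) = merComp hψφ := ringHom_mer_ext fun f => by
    rw [RingHom.comp_apply, merComp_toMer, merComp_toMer, merComp_toMer]
    rfl
  exact RingHom.congr_fun this x

/-- The action of `γ` by composition. -/
def merSL (γ : SL(2, ℤ)) : Mer →+* Mer := merComp (isGoodMap_smul γ)

theorem merSL_toMer (γ : SL(2, ℤ)) (f : holSub) :
    merSL γ (toMer f) = toMer ⟨fun z => (f : ℍ → ℂ) (γ • z), mdiff_comp_smul f.2 γ⟩ :=
  merComp_toMer _ _

theorem merSL_one (x : Mer) : merSL 1 x = x := by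
  have : merSL 1 = RingHom.id Mer := ringHom_mer_ext fun f => by
    rw [merSL_toMer, RingHom.id_apply]
    simp
  rw [this, RingHom.id_apply]

theorem merSL_mul (γ δ : SL(2, ℤ)) (x : Mer) : merSL (γ * δ) x = merSL δ (merSL γ x) := by
  have : merSL (γ * δ) = (merSL δ).comp (merSL γ) := ringHom_mer_ext fun f => by
    rw [RingHom.comp_apply, merSL_toMer, merSL_toMer, merSL_toMer]
    simp only [mul_smul]
  rw [this, RingHom.comp_apply]

theorem merSL_injective (γ : SL(2, ℤ)) : Function.Injective (merSL γ) := (merSL γ).injective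

theorem merC_ne_zero {c : ℂ} (hc : c ≠ 0) : merC c ≠ 0 := (_root_.map_ne_zero merC).2 hc

end FA.Level
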