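import Fermat.Agent.Level.Families
import Fermat.Agent.Level.Mer
import Fermat.Agent.JTorsion.Roots

/-!
# The function field of a level inside the meromorphic functions on the upper half plane

An element of the function field with all orders divisible by `n` has an `n`-th root there, and
an invariant element with an `n`-th power in the function field lies in the function field.
-/

set_option autoImplicit false
set_option linter.style.haveILetI false
set_option linter.unusedSectionVars false
set_option synthInstance.maxHeartbeats 200000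
set_option maxHeartbeats 1600000

noncomputable section

namespace FA.Level

open UpperHalfPlane hiding I
open Complex Filter Set CongruenceSubgroup ModularCurve AlgebraicCurve FA.ModField
open FA.JTorsion (exists_root order_tay_eq)
open scoped MatrixGroups Topology Manifold

/-! ### The function field in `Mer` -/

variable {V : Lvl} {L : Type} [Field L] [Algebra ℚ L] [Algebra L ℂ]

/-- `alg` as holomorphic functions. -/
def genHol : V.alg L →+* holSub :=
  RingHom.codRestrict (V.funHom L) holSub fun a => (V.funHom_mem L a).1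

theorem genHol_injective : Function.Injective (genHol (V := V) (L := L)) := fun a b h =>
  (V.funHom_injective L) (congrArg Subtype.val h)

/-- The function field as meromorphic functions. -/
def theta : V.fld L →+* Mer :=
  IsFractionRing.lift (A := V.alg L) (K := V.fld L) (L := Mer)
    (g := toMer.comp (genHol (V := V) (L := L))) (toMer_injective.comp genHol_injective)

theorem theta_toFld (a : V.alg L) :
    theta (V.toFld L a) = toMer (genHol a) :=
  IsFractionRing.lift_algebraMap _ _

theorem theta_algebraMap (c : L) :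
    theta (algebraMap L (V.fld L) c) = merC (algebraMap L ℂ c) := by
  rw [show algebraMap L (V.fld L) c = V.toFld L (algebraMap L (V.alg L) c) from
    IsScalarTower.algebraMap_apply L (V.alg L) (V.fld L) c, theta_toFld, merC_eq]
  exact congrArg toMer (Subtype.ext (V.funHom_algebraMap L c))

theorem merSL_theta {γ : SL(2, ℤ)} (hγ : γ ∈ V.grp) (f : V.fld L) :
    merSL γ (theta f) = theta f := by
  obtain ⟨a, b, hb, hab⟩ := V.exists_fraction L f
  have key : ∀ c : V.alg L, merSL γ (toMer (genHol c)) = toMer (genHol c) := fun c => by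
    rw [merSL_toMer]
    exact congrArg toMer (Subtype.ext (funext fun z => (V.funHom_mem L c).2.1 γ hγ z))
  have h1 : theta f * toMer (genHol b) = toMer (genHol a) := by
    rw [← theta_toFld, ← theta_toFld, ← map_mul]
    exact congrArg theta hab
  have h2 := congrArg (merSL γ) h1
  rw [map_mul, key, key, ← h1] at h2
  exact mul_right_cancel₀ (fun h0 => hb (genHol_injective (by
    rw [map_zero]; exact toMer_injective (h0.trans (map_zero _).symm)))) h2

/-- The order of an element of `alg` at a point. -/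
theorem order_expAt_point (a : V.alg L) (ha : a ≠ 0) (τ : ℍ) :
    (expAt (pointPar V τ) 1 a).order = analyticOrderNatAt (V.funHom L a ∘ ofComplex) (τ : ℂ) := by
  have hm := (V.funHom_mem L a).1
  rw [expAt_eq ((hasExp_cay hm τ).congr (funext fun w => by
    show V.funHom L a (cayH τ w) = V.funHom L a ((1 : SL(2, ℤ)) • cayH τ w)
    rw [one_smul]))]
  exact order_tay_eq hm (fun h => ha ((V.funHom_injective L) (by rw [h, map_zero]))) τ

/-- An element of the function field with orders divisible by `n` has an `n`-th root in `Mer`. -/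
theorem exists_mer_root {n : ℕ} (hn : n ≠ 0) {f : V.fld L} (hf : f ≠ 0)
    (hord : ∀ v : Place L (V.fld L), (n : ℤ) ∣ v.ord f) :
    ∃ h : Mer, h ^ n = theta f := by
  obtain ⟨a, b, hb, hab⟩ := V.exists_fraction L f
  have ha : a ≠ 0 := fun h0 => by
    subst h0
    rcases mul_eq_zero.1 (hab.trans (by rfl : _ = (0 : V.fld L))) with h | h
    · exact hf h
    · exact hb (Subtype.ext (congrArg Subtype.val h :))
  set P : ℍ → ℂ := V.funHom L (a * b ^ (n - 1)) with hP
  have hAB : a * b ^ (n - 1) ≠ 0 := mul_ne_zero ha (pow_ne_zero _ hb)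
  have hP0 : P ≠ 0 := fun h => hAB ((V.funHom_injective L) (by rw [← hP, h, map_zero]))
  obtain ⟨R, hR, hRP⟩ := exists_root (V.funHom_mem L (a * b ^ (n - 1))).1 hP0 hn (fun τ => by
    have hdiv : (n : ℤ) ∣ (emb (pointPar V τ) 1 f).order := by
      rcases exists_place_of_embedding (emb (L := L) (pointPar V τ) 1) with h | ⟨v, k, -, h⟩
      · rw [h f]; exact dvd_zero _
      · rw [h f]; exact dvd_mul_of_dvd_right (hord v) _
    have heq := congrArg (emb (pointPar V τ) 1) hab
    rw [map_mul, emb_toFld, emb_toFld] at heq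
    have hne : ∀ c : V.alg L, c ≠ 0 → expAt (pointPar V τ) 1 c ≠ 0 := fun c hc h0 =>
      hc (expHom_injective (pointPar V τ) 1 (by
        show expAt (pointPar V τ) 1 c = expHom (pointPar V τ) 1 0
        rw [map_zero]; exact h0))
    have heq' := congrArg HahnSeries.order heq
    rw [HahnSeries.order_mul ((_root_.map_ne_zero _).2 hf) (hne b hb)] at heq'
    have hprod : expAt (pointPar V τ) 1 (a * b ^ (n - 1)) =
        expAt (pointPar V τ) 1 a * expAt (pointPar V τ) 1 b ^ (n - 1) := by
      show expHom (pointPar V τ) 1 _ = expHom (pointPar V τ) 1 a * expHom (pointPar V τ) 1 b ^ _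
      rw [map_mul, map_pow]
    have h3 := order_expAt_point (L := L) (a * b ^ (n - 1)) hAB τ
    rw [hprod, HahnSeries.order_mul (hne a ha) (pow_ne_zero _ (hne b hb)), HahnSeries.order_pow,
      nsmul_eq_mul, ← heq'] at h3
    rw [← Int.natCast_dvd_natCast, ← h3]
    obtain ⟨c, hc⟩ := hdiv
    refine ⟨c + (expAt (pointPar V τ) 1 b).order, ?_⟩
    rw [hc, Nat.cast_sub (Nat.pos_of_ne_zero hn)]
    push_cast
    ring)
  refine ⟨toMer ⟨R, hR⟩ / toMer (genHol b), ?_⟩
  have hb' : toMer (genHol b) ≠ 0 := fun h0 => hb (genHol_injective (by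
    rw [map_zero]; exact toMer_injective (h0.trans (map_zero _).symm)))
  have hpow : toMer (⟨R, hR⟩ : holSub) ^ n = toMer (genHol (a * b ^ (n - 1))) := by
    rw [← map_pow]
    exact congrArg toMer (Subtype.ext (funext hRP))
  have h1 : theta f * toMer (genHol b) = toMer (genHol a) := by
    rw [← theta_toFld, ← theta_toFld, ← map_mul]
    exact congrArg theta hab
  rw [div_pow, hpow, map_mul, map_mul, map_pow, map_pow, ← h1, div_eq_iff (pow_ne_zero _ hb'),
    mul_assoc, ← pow_succ', Nat.sub_add_cancel (Nat.pos_of_ne_zero hn)]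

/-- An invariant holomorphic function a power of which is a modular function is one. -/
theorem mem_mf_of_pow {V : Lvl} {R : ℍ → ℂ} (hR : MDiff R)
    (hinv : ∀ γ ∈ V.grp, ∀ z, R (γ • z) = R z) {n : ℕ} (hn : n ≠ 0)
    (hpow : (fun z => R z ^ n) ∈ V.mf) : R ∈ V.mf := by
  have hall : ∀ δ : SL(2, ℤ), ∃ L, HasExp (qp V.M) (fun z => R (δ • z)) L := by
    intro δ
    obtain ⟨L, hL⟩ := hpow.2.2.2 δ
    set M : ℕ := (-L.order).toNat
    set S : ℍ → ℂ := fun z => R (δ • z) * qp V.M z ^ M
    have hSn : HasExp (qp V.M) (fun z => S z ^ n) (L * HahnSeries.single ((M * n : ℕ) : ℤ) 1) := by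
      refine (hL.mul (qp_ne_zero V.M) (hasExp_single ((M * n : ℕ) : ℤ) 1)).congr (funext fun z => ?_)
      simp only [S, Pi.mul_apply, one_mul, zpow_natCast, mul_pow, ← pow_mul]
    have hord : OrdGE 0 (L * HahnSeries.single ((M * n : ℕ) : ℤ) (1 : ℂ)) := by
      refine ((ordGE_order L).mul (b := ((M * n : ℕ) : ℤ)) fun i hi => ?_).mono ?_
      · rw [HahnSeries.coeff_single_of_ne hi.ne]
      · have h1 : 1 ≤ n := Nat.pos_of_ne_zero hn
        have h2 : (-L.order).toNat ≤ M * n := Nat.le_mul_of_pos_right _ h1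
        omega
    have hbn : IsBoundedAtImInfty fun z => S z ^ n :=
      isBoundedAtImInfty_of_hasSum_qExpansion (h := (V.M : ℝ))
        (by exact_mod_cast Nat.pos_of_ne_zero (V.M_ne))
        (c := fun k : ℕ => (L * HahnSeries.single ((M * n : ℕ) : ℤ) (1 : ℂ)).coeff k)
        fun z => by simpa [qp, smul_eq_mul] using (hasExp_iff_nat hord).1 hSn z
    have hb : IsBoundedAtImInfty S := by
      rw [UpperHalfPlane.isBoundedAtImInfty_iff] at hbn ⊢
      obtain ⟨B, A, hB⟩ := hbn
      refine ⟨max B 1, A, fun z hz => ?_⟩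
      rcases le_or_gt ‖S z‖ 1 with h | h
      · exact h.trans (le_max_right _ _)
      · refine le_trans ?_ ((hB z hz).trans (le_max_left _ _))
        rw [norm_pow]
        exact le_self_pow₀ h.le hn
    have hqd : MDiff (qp V.M) := by
      rw [UpperHalfPlane.mdifferentiable_iff]
      intro w hw
      refine (((qParam_hasDerivAt V.M w).differentiableAt).congr_of_eventuallyEq
        ?_).differentiableWithinAt
      filter_upwards [isOpen_upperHalfPlaneSet.mem_nhds hw] with x hx
      simp [qp, Function.comp_apply, ofComplex_apply_of_im_pos hx]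
    have hSd : MDiff S := (mdiff_comp_smul hR δ).mul (hqd.pow M)
    have hTN : δ * ModularGroup.T ^ (V.M : ℤ) * δ⁻¹ ∈ V.grp := V.conj_T_pow_mem δ
    have hper : Function.Periodic (S ∘ ofComplex) (V.M : ℝ) := by
      intro w
      rcases le_or_gt w.im 0 with hw | hw
      · have hw' : (w + (V.M : ℝ)).im ≤ 0 := by simpa using hw
        simp only [Function.comp_apply, ofComplex_apply_eq_of_im_nonpos hw' hw]
      · have hw' : 0 < (w + (V.M : ℝ)).im := by simpa using hw
        simp only [Function.comp_apply, ofComplex_apply_of_im_pos hw,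
          ofComplex_apply_of_im_pos hw', S]
        have e : (⟨w + (V.M : ℝ), hw'⟩ : ℍ) = ModularGroup.T ^ (V.M : ℤ) • (⟨w, hw⟩ : ℍ) := by
          apply UpperHalfPlane.ext
          rw [ModularGroup.coe_T_zpow_smul_eq]
          simp
        congr 1
        · rw [e, ← mul_smul, ← hinv _ hTN (δ • (⟨w, hw⟩ : ℍ)), smul_smul]
          simp [mul_assoc]
        · congr 1
          simp only [qp]
          rw [Function.Periodic.qParam, Function.Periodic.qParam, Complex.ofReal_natCast,
            mul_add, add_div,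
            mul_div_cancel_right₀ _ (show ((V.M : ℕ) : ℂ) ≠ 0 by exact_mod_cast V.M_ne),
            Complex.exp_add, Complex.exp_two_pi_mul_I, mul_one]
    have hSexp : HasExp (qp V.M) S (HahnSeries.ofPowerSeries ℤ ℂ (UpperHalfPlane.qExpansion V.M S)) :=
      hasExp_ofPowerSeries fun z => by
        have := UpperHalfPlane.hasSum_qExpansion (h := (V.M : ℝ))
          (by exact_mod_cast Nat.pos_of_ne_zero (V.M_ne)) hper hSd hb z
        simpa [qp, smul_eq_mul] using this
    refine ⟨_, (hSexp.mul (qp_ne_zero V.M) (hasExp_single (-(M : ℤ)) 1)).congr (funext fun z => ?_)⟩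
    simp only [S, Pi.mul_apply, one_mul, zpow_neg, zpow_natCast]
    rw [mul_assoc, mul_inv_cancel₀ (pow_ne_zero _ (qp_ne_zero V.M z)), mul_one]
  refine ⟨hR, hinv, ?_, hall⟩
  obtain ⟨L, hL⟩ := hall 1
  exact hasExp_descend (fun z => hinv _ V.T_mem z)
    (hL.congr (funext fun z => by rw [one_smul]))

/-- A modular function with series over `L` comes from the function field over `L`. -/
theorem exists_theta_of_modFuns {R : ℍ → ℂ} (hR : R ∈ V.mf) (r : LaurentSeries L)
    (hr : HasExp (qp 1) R (coeffMap (algebraMap L ℂ) r)) :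
    ∃ g : V.fld L, theta g = toMer ⟨R, hR.1⟩ := by
  set g : V.fld L := ⟨r, V.mem_fld_of_modFuns hR r hr⟩
  obtain ⟨a, b, hb, hab⟩ := V.exists_fraction L g
  refine ⟨g, ?_⟩
  have hb0 : toMer (genHol b) ≠ 0 := fun h0 => hb (genHol_injective (by
    rw [map_zero]; exact toMer_injective (h0.trans (map_zero _).symm)))
  have hser : r * (b : LaurentSeries L) = a := congrArg Subtype.val hab
  have hfun : R * V.funHom L b = V.funHom L a := by
    refine (hr.mul (qp_ne_zero 1) (V.funHom_exp L b)).fun_unique ?_
    rw [← map_mul, hser]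
    exact V.funHom_exp L a
  refine mul_right_cancel₀ hb0 ?_
  rw [← theta_toFld, ← map_mul, hab, theta_toFld, theta_toFld, ← map_mul]
  exact congrArg toMer (Subtype.ext hfun.symm)

/-- An invariant element of `Mer` with an `n`-th power in the function field is in it. -/
theorem exists_theta_of_invariant [IsAlgClosed L] {x : Mer} {n : ℕ} (hn : n ≠ 0)
    {f : V.fld L} (hx : x ^ n = theta f)
    (hinv : ∀ γ ∈ V.grp, merSL γ x = x) :
    ∃ g : V.fld L, theta g = x := by
  rcases eq_or_ne x 0 with rfl | hx0
  · exact ⟨0, map_zero _⟩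
  obtain ⟨a, b, hb, hab⟩ := V.exists_fraction L f
  have hb0 : toMer (genHol b) ≠ 0 := fun h0 => hb (genHol_injective (by
    rw [map_zero]; exact toMer_injective (h0.trans (map_zero _).symm)))
  have h1 : theta f * toMer (genHol b) = toMer (genHol a) := by
    rw [← theta_toFld, ← theta_toFld, ← map_mul]
    exact congrArg theta hab
  set y := x * toMer (genHol b)
  have hy : y ^ n = toMer (genHol (a * b ^ (n - 1))) := by
    rw [mul_pow, hx, map_mul, map_mul, map_pow, map_pow, ← h1, mul_assoc, ← pow_succ',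
      Nat.sub_add_cancel (Nat.pos_of_ne_zero hn)]
  obtain ⟨r, s, hs, hrs⟩ := exists_toMer_div y
  have hs0 : toMer s ≠ 0 := fun h => hs (toMer_injective (h.trans (map_zero _).symm))
  set P : ℍ → ℂ := V.funHom L (a * b ^ (n - 1)) with hP
  have hpoly : r ^ n = genHol (a * b ^ (n - 1)) * s ^ n := toMer_injective (by
    rw [map_pow, ← hrs, mul_pow, hy, ← map_pow toMer, ← map_mul toMer])
  have hP0 : P ≠ 0 := by
    intro h0
    have h2 : y ^ n = 0 := by
      rw [hy, show genHol (a * b ^ (n - 1)) = 0 from Subtype.ext h0, map_zero]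
    rcases mul_eq_zero.1 ((pow_eq_zero_iff hn).1 h2) with h | h
    · exact hx0 h
    · exact hb0 h
  have hsf : (s : ℍ → ℂ) ≠ 0 := fun h => hs (Subtype.ext h)
  obtain ⟨R, hR, hRP⟩ := exists_root (V.funHom_mem L (a * b ^ (n - 1))).1 hP0 hn (fun τ => by
    have hfun : (r : ℍ → ℂ) ^ n = P * (s : ℍ → ℂ) ^ n := by
      exact congrArg Subtype.val hpoly
    have hmem : (τ : ℂ) ∈ {z : ℂ | 0 < z.im} := τ.im_pos
    have hAn : ∀ g : ℍ → ℂ, MDiff g → AnalyticAt ℂ (g ∘ ofComplex) (τ : ℂ) := fun g hg =>
      (UpperHalfPlane.mdifferentiable_iff.1 hg).analyticAt (isOpen_upperHalfPlaneSet.mem_nhds hmem)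
    have hfin : ∀ g : ℍ → ℂ, MDiff g → g ≠ 0 →
        analyticOrderAt (g ∘ ofComplex) (τ : ℂ) ≠ ⊤ := by
      intro g hg hg0 htop
      refine hg0 (UpperHalfPlane.eq_zero_of_frequently hg (τ := τ) ?_)
      have h := (UpperHalfPlane.continuous_coe.tendsto τ).eventually
        (analyticOrderAt_eq_top.1 htop)
      refine (h.filter_mono nhdsWithin_le_nhds).frequently.mono fun z hz => ?_
      simpa [Function.comp_apply, ofComplex_apply] using hz
    have hcomp : ((r : ℍ → ℂ) ∘ ofComplex) ^ n = (P ∘ ofComplex) * ((s : ℍ → ℂ) ∘ ofComplex) ^ n := by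
      funext w
      exact congrFun hfun (ofComplex w)
    have hord := congrArg (fun g => analyticOrderNatAt g (τ : ℂ)) hcomp
    rw [analyticOrderNatAt_pow (hAn _ r.2), analyticOrderNatAt_mul
      (hAn _ (V.funHom_mem L (a * b ^ (n - 1))).1) ((hAn _ s.2).pow n)
      (hfin _ (V.funHom_mem L (a * b ^ (n - 1))).1 hP0) (by
        rw [analyticOrderAt_pow (hAn _ s.2)]
        have := hfin _ s.2 hsf
        intro htop
        obtain ⟨k, hk⟩ := ENat.ne_top_iff_exists.1 this
        rw [← hk, nsmul_eq_mul, ← Nat.cast_mul] at htop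
        exact ENat.natCast_ne_top _ htop),
      analyticOrderNatAt_pow (hAn _ s.2)] at hord
    simp only [smul_eq_mul] at hord
    exact (Nat.dvd_add_left (dvd_mul_right n _)).1 (hord ▸ dvd_mul_right n _))
  set Rm := toMer ⟨R, hR⟩
  have hRm : Rm ^ n = y ^ n := by
    rw [hy, ← map_pow]
    exact congrArg toMer (Subtype.ext (funext hRP))
  have hRm0 : Rm ≠ 0 := by
    intro h
    rw [h, zero_pow hn, eq_comm, pow_eq_zero_iff hn] at hRm
    rcases mul_eq_zero.1 hRm with h' | h'
    · exact hx0 h'
    · exact hb0 h'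
  obtain ⟨ζ, -, hζ⟩ := exists_root_of_unity hn (x := y / Rm)
    (by rw [div_pow, hRm, div_self (hRm ▸ pow_ne_zero n hRm0)])
  set R' : holSub := ⟨fun z => ζ * R z, mdifferentiable_const.mul hR⟩
  have hyR : y = toMer R' := by
    rw [(div_eq_iff hRm0).1 hζ, merC_eq, ← map_mul]
    exact congrArg toMer (Subtype.ext rfl)
  have hR'inv : ∀ γ ∈ V.grp, ∀ z, (R' : ℍ → ℂ) (γ • z) = (R' : ℍ → ℂ) z := by
    intro γ hγ z
    have hbfix : merSL γ (toMer (genHol b)) = toMer (genHol b) := by
      rw [← theta_toFld]; exact merSL_theta hγ _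
    have h2 : merSL γ y = y := by
      show merSL γ (x * toMer (genHol b)) = x * toMer (genHol b)
      rw [map_mul, hinv γ hγ, hbfix]
    rw [hyR, merSL_toMer] at h2
    exact congrFun (congrArg Subtype.val (toMer_injective h2)) z
  have hpow' : (fun z => (R' : ℍ → ℂ) z ^ n) = P := by
    have h2 := hy
    rw [hyR, ← map_pow] at h2
    funext z
    exact congrFun (congrArg Subtype.val (toMer_injective h2)) z
  have hmf : (R' : ℍ → ℂ) ∈ V.mf :=
    mem_mf_of_pow R'.2 hR'inv hn (by rw [hpow']; exact V.funHom_mem L _)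
  obtain ⟨S, hS⟩ := hmf.2.2.1
  obtain ⟨ser, rfl⟩ := exists_coeffMap_eq_of_pow hn S _
    ((hS.pow (qp_ne_zero 1) n).unique (covers_qp 1)
      ((V.funHom_exp L (a * b ^ (n - 1))).congr (by rw [← hP, ← hpow']; rfl)))
  obtain ⟨g, hg⟩ := exists_theta_of_modFuns hmf ser hS
  refine ⟨g / V.toFld L b, ?_⟩
  rw [map_div₀, hg, theta_toFld, div_eq_iff hb0]
  exact hyR.symm

end FA.Level
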